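import Fermat.Agent.Curve.Diff.Hurwitz
import Fermat.Agent.Curve.Basics.IsCurveOver
import Fermat.Agent.Curve.RR.Setup
import Fermat.Prelude.Def_AlgebraicCurve_CanonicalDivisor

/-!
# Differentials in characteristic zero

For a function field `F/K`, `K` algebraically closed of characteristic zero: `dCoord` generates
at every place, `HasCanonicalDivisor K F` holds, a canonical divisor has degree `2g - 2`, and
`genus K F = genusFF K F`.
-/

set_option autoImplicit false

noncomputable section

open AlgebraicCurve IntermediateField Polynomial FermatAgent.Curve.RR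

open KaehlerDifferential (D)

open scoped KaehlerDifferential

namespace FermatAgent.Curve.Diff

variable {K F : Type*} [Field K] [Field F] [Algebra K F] [IsAlgClosed K] [IsFunctionField1 K F]
  [CharZero K]

omit [IsAlgClosed K] in
theorem isSeparable_adjoin' {x : F} (hx : Transcendental K x) : Algebra.IsSeparable K⟮x⟯ F := by
  have := finiteDimensional_adjoin_of_transcendental hx
  have : CharZero K⟮x⟯ := charZero_of_injective_algebraMap (algebraMap K _).injective
  infer_instance

omit [IsAlgClosed K] [IsFunctionField1 K F] [CharZero K] in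
theorem isGen_gen {x : F} (hx : Transcendental K x) : IsGen K (AdjoinSimple.gen K x) := by
  refine ⟨fun h => hx ?_, ?_⟩
  · simpa using h.algebraMap (A := F)
  · apply IntermediateField.map_injective K⟮x⟯.val
    rw [adjoin_map, ← AlgHom.fieldRange_eq_map, fieldRange_val, Set.image_singleton]
    rfl

omit [IsAlgClosed K] in
theorem span_D_eq_top' {x : F} (hx : Transcendental K x) :
    Submodule.span F {D K F x} = ⊤ :=
  haveI := isSeparable_adjoin' hx
  span_D_eq_top hx

omit [IsAlgClosed K] in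
theorem D_ne_zero' {x : F} (hx : Transcendental K x) : D K F x ≠ 0 :=
  haveI := isSeparable_adjoin' hx
  D_ne_zero hx

omit [IsAlgClosed K] in
theorem exists_eq_smul_D {x : F} (hx : Transcendental K x) (ω : Ω[F⁄K]) :
    ∃ f : F, ω = f • D K F x := by
  have h : ω ∈ Submodule.span F {D K F x} := span_D_eq_top' hx ▸ Submodule.mem_top
  exact (Submodule.mem_span_singleton.mp h).imp fun _ h => h.symm

variable {P : Place K F} {π : F}

omit [IsFunctionField1 K F] [CharZero K] in
theorem transcendental_of_ord_eq_one (hπ : P.ord π = 1) : Transcendental K π :=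
  transcendental_of_ord_ne_zero P (by omega)

omit [IsAlgClosed K] [IsFunctionField1 K F] [CharZero K] in
theorem ne_zero_of_ord_eq_one (hπ : P.ord π = 1) : π ≠ 0 := by
  rintro rfl
  simp at hπ

/-- `ω` vanishes to order at least `k` at `P`, measured by `dπ`. -/
def DGE (P : Place K F) (π : F) (k : ℤ) (ω : Ω[F⁄K]) : Prop :=
  ∃ f : F, OrdGE P k f ∧ ω = f • D K F π

omit [IsAlgClosed K] [IsFunctionField1 K F] [CharZero K] in
theorem DGE.mono {k k' : ℤ} (h : k' ≤ k) {ω : Ω[F⁄K]} (hω : DGE P π k ω) : DGE P π k' ω :=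
  hω.imp fun _ hf => ⟨hf.1.mono h, hf.2⟩

omit [IsAlgClosed K] [IsFunctionField1 K F] [CharZero K] in
theorem DGE.add {k : ℤ} {ω η : Ω[F⁄K]} (hω : DGE P π k ω) (hη : DGE P π k η) :
    DGE P π k (ω + η) := by
  obtain ⟨f, hf, rfl⟩ := hω
  obtain ⟨g, hg, rfl⟩ := hη
  exact ⟨f + g, hf.add hg, (add_smul f g _).symm⟩

omit [IsAlgClosed K] [IsFunctionField1 K F] [CharZero K] in
theorem DGE.smul {k k' : ℤ} {a : F} (ha : OrdGE P k' a) {ω : Ω[F⁄K]} (hω : DGE P π k ω) :
    DGE P π (k' + k) (a • ω) := by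
  obtain ⟨f, hf, rfl⟩ := hω
  exact ⟨a * f, ha.mul hf, (mul_smul a f _).symm⟩

omit [IsAlgClosed K] [IsFunctionField1 K F] [CharZero K] in
theorem DGE.zero (k : ℤ) : DGE P π k (0 : Ω[F⁄K]) := ⟨0, OrdGE.zero k, (zero_smul F _).symm⟩

omit [IsAlgClosed K] [IsFunctionField1 K F] [CharZero K] in
theorem DGE.neg {k : ℤ} {ω : Ω[F⁄K]} (hω : DGE P π k ω) : DGE P π k (-ω) := by
  obtain ⟨f, hf, rfl⟩ := hω
  exact ⟨-f, hf.neg, (neg_smul f _).symm⟩

omit [IsAlgClosed K] [IsFunctionField1 K F] [CharZero K] in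
theorem DGE.sub {k : ℤ} {ω η : Ω[F⁄K]} (hω : DGE P π k ω) (hη : DGE P π k η) :
    DGE P π k (ω - η) := by
  simpa [sub_eq_add_neg] using hω.add hη.neg

omit [IsAlgClosed K] [IsFunctionField1 K F] [CharZero K] in
theorem DGE.sum {k : ℤ} {ι : Type*} (s : Finset ι) {ω : ι → Ω[F⁄K]}
    (h : ∀ i ∈ s, DGE P π k (ω i)) : DGE P π k (∑ i ∈ s, ω i) :=
  Finset.sum_induction ω (DGE P π k) (fun _ _ => DGE.add) (DGE.zero k) h

omit [IsAlgClosed K] [IsFunctionField1 K F] [CharZero K] in
theorem dGE_D_self : DGE P π 0 (D K F π) :=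
  ⟨1, Or.inr (by simp), (one_smul F _).symm⟩

/-- A uniform lower bound for derivatives of functions regular at `P`. -/
theorem exists_bound (hπ : P.ord π = 1) :
    ∃ B : ℕ, ∀ g : F, OrdGE P 0 g → DGE P π (-(B : ℤ)) (D K F g) := by
  classical
  have hπt := transcendental_of_ord_eq_one hπ
  have := finiteDimensional_adjoin_of_transcendental hπt
  set L := K⟮π⟯
  set u : L := AdjoinSimple.gen K π
  have hu : IsGen K u := isGen_gen hπt
  have huπ : algebraMap L F u = π := AdjoinSimple.algebraMap_gen K π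
  have hPz : P ∈ zerosAt u (0 : K) := by
    rw [zerosAt, mem_zerosFinset, huπ, map_zero, sub_zero]; omega
  set b := localBasis (F := F) (c := (0 : K)) hu
  choose f hf using fun l => exists_eq_smul_D hπt (D K F (b l))
  choose M hM using fun l => exists_natBound (K := K) (f l)
  set B := Finset.univ.sup M
  have hreg : ∀ g : F, RegAt u (0 : K) g → DGE P π (-(B : ℤ)) (D K F g) := by
    intro g hg
    rw [← sum_repr_mul (c := (0 : K)) hu g, map_sum]
    refine DGE.sum _ fun l _ => ?_
    set q := b.repr g l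
    have hq : RegAt u (0 : K) (algebraMap L F q) := regAt_coeff hu hg l
    obtain ⟨s, hs, hsreg, hsc⟩ := exists_multiplier hu (algebraMap L F q)
    rw [← map_mul] at hsreg
    obtain ⟨p, hp⟩ := exists_eq_aeval_of_finReg (F := F) hu hsreg
    have hs0 := hsc 0 hq
    have hsne : algebraMap L F (aeval u s) ≠ 0 :=
      (_root_.map_ne_zero _).mpr fun h' => hu.transcendental ⟨_, hs, h'⟩
    have heq : algebraMap L F q = aeval π p / aeval π s := by
      rw [← huπ, aeval_algebraMap_apply, aeval_algebraMap_apply, eq_div_iff hsne, ← map_mul,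
        mul_comm, hp]
    have hsord : P.ord (aeval π s) = 0 := by
      rw [← huπ, aeval_algebraMap_apply]; exact (ord_aeval_eq_zero hPz hs0).1
    have hmem : π ∈ P.toValuationSubring := (mem_iff_ord_nonneg P).mpr (Or.inr (by omega))
    have hpoly : ∀ a : K[X], OrdGE P 0 (aeval π a) := fun a =>
      ordGE_zero_iff_mem.mpr (aeval_mem P hmem a)
    have hDq : DGE P π 0 (D K F (algebraMap L F q)) := by
      rw [heq, Derivation.leibniz_div, Derivation.map_aeval, Derivation.map_aeval]
      have hi : OrdGE P 0 ((aeval π s)⁻¹ ^ 2) := Or.inr (by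
        rw [ord_pow', P.ord_inv, hsord]; simp)
      have h1 : DGE P π 0 (aeval π s • aeval π (derivative p) • D K F π
          - aeval π p • aeval π (derivative s) • D K F π) := by
        refine DGE.sub ?_ ?_ <;>
          simpa using (DGE.smul (hpoly _) (DGE.smul (hpoly _) (dGE_D_self (P := P) (π := π))))
      simpa using DGE.smul hi h1
    rw [Derivation.leibniz, ← localBasis_apply hu l]
    refine DGE.add ?_ ?_
    · have := DGE.smul (hq P hPz) (⟨f l, hM l P, hf l⟩ : DGE P π _ (D K F (b l)))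
      exact this.mono (by
        have := Finset.le_sup (f := M) (Finset.mem_univ l)
        omega)
    · have hb : OrdGE P 0 (b l) := by rw [localBasis_apply]; exact regAt_xBasis l P hPz
      exact (DGE.smul hb hDq).mono (by omega)
  refine ⟨B, fun g hg => ?_⟩
  obtain ⟨M', hM'⟩ := exists_natBound (K := K) g
  obtain ⟨h, hh0, hh⟩ := exists_forall_ord_eq (zerosAt (F := F) u (0 : K))
    (fun Q => if Q = P then 0 else (M' : ℤ))
  have hhord : P.ord h = 0 := by rw [hh P hPz, if_pos rfl]
  have hhreg : RegAt u (0 : K) h := fun Q hQ => Or.inr (by rw [hh Q hQ]; split_ifs <;> omega)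
  have hgreg : RegAt u (0 : K) (g * h) := fun Q hQ => by
    by_cases hQP : Q = P
    · subst hQP; simpa using hg.mul (hhreg Q hQ)
    · exact ((hM' Q).mul (Or.inr (by rw [hh Q hQ, if_neg hQP]) : OrdGE Q (M' : ℤ) h)).mono (by omega)
  have hi : OrdGE P 0 (h⁻¹ ^ 2) := Or.inr (by rw [ord_pow', P.ord_inv, hhord]; simp)
  rw [show g = g * h / h by field_simp, Derivation.leibniz_div]
  have h1 := DGE.sub (DGE.smul (hhreg P hPz) (hreg _ hgreg)) (DGE.smul (hgreg P hPz) (hreg _ hhreg))
  simpa using DGE.smul hi h1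

/-- `d/dπ` preserves the local ring. -/
theorem dGE_D (hπ : P.ord π = 1) {g : F} (hg : OrdGE P 0 g) : DGE P π 0 (D K F g) := by
  obtain ⟨B, hB⟩ := exists_bound hπ
  suffices ∀ k : ℕ, k ≤ B → ∀ g : F, OrdGE P 0 g → DGE P π (-((B - k : ℕ) : ℤ)) (D K F g) by
    simpa using this B le_rfl g hg
  intro k
  induction k with
  | zero => intro _ g hg; simpa using hB g hg
  | succ k ih =>
    intro hk g hg
    set a := valueAt P g
    set g₁ := (g - algebraMap K F a) / π
    have hπ0 := ne_zero_of_ord_eq_one hπ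
    have hg₁ : OrdGE P 0 g₁ := by
      have := (ordGE_sub_valueAt hg).mul
        (Or.inr (by rw [P.ord_inv, hπ]) : OrdGE P (-1 : ℤ) π⁻¹)
      simpa [g₁, div_eq_mul_inv] using this
    have hD : D K F g = g₁ • D K F π + π • D K F g₁ := by
      have : g = algebraMap K F a + g₁ * π := by simp only [g₁]; field_simp; ring
      conv_lhs => rw [this]
      rw [map_add, Derivation.map_algebraMap, zero_add, Derivation.leibniz]
    rw [hD]
    refine DGE.add ((DGE.smul hg₁ dGE_D_self).mono (by omega)) ?_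
    exact (DGE.smul (Or.inr hπ.ge : OrdGE P 1 π) (ih (by omega) g₁ hg₁)).mono (by omega)

/-- The order of `dx`: one less than the order of `x`. -/
theorem exists_D_eq (hπ : P.ord π = 1) {x : F} (hx : P.ord x ≠ 0) :
    ∃ f : F, f ≠ 0 ∧ P.ord f = P.ord x - 1 ∧ D K F x = f • D K F π := by
  suffices ∀ y : F, 0 < P.ord y →
      ∃ f : F, f ≠ 0 ∧ P.ord f = P.ord y - 1 ∧ D K F y = f • D K F π by
    rcases lt_or_gt_of_ne hx with h | h
    swap
    · exact this x h
    obtain ⟨f, hf0, hf, hDf⟩ := this x⁻¹ (by rw [P.ord_inv]; omega)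
    have hx0 : x ≠ 0 := by rintro rfl; simp at hx
    refine ⟨-(x ^ 2 * f), neg_ne_zero.mpr (mul_ne_zero (pow_ne_zero _ hx0) hf0), ?_, ?_⟩
    · rw [ord_neg, P.ord_mul (pow_ne_zero _ hx0) hf0, ord_pow', hf, P.ord_inv]
      omega
    · conv_lhs => rw [← inv_inv x]
      rw [Derivation.leibniz_inv, hDf, inv_inv, smul_smul, neg_mul]
  intro y hy
  have hπ0 := ne_zero_of_ord_eq_one hπ
  have hy0 : y ≠ 0 := by rintro rfl; simp at hy
  obtain ⟨e, he⟩ : ∃ e : ℕ, P.ord y = e + 1 := ⟨(P.ord y - 1).toNat, by omega⟩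
  set w := y / π ^ (e + 1)
  have hw0 : w ≠ 0 := div_ne_zero hy0 (pow_ne_zero _ hπ0)
  have hw : P.ord w = 0 := by
    simp only [w]
    rw [ord_div P hy0 (pow_ne_zero _ hπ0), ord_pow', hπ]
    omega
  obtain ⟨g, hg, hDw⟩ := dGE_D (g := w) hπ (Or.inr hw.ge)
  set main := ((e + 1 : ℕ) : F) * π ^ e * w
  have hne : ((e + 1 : ℕ) : K) ≠ 0 := Nat.cast_ne_zero.mpr (by omega)
  have hcast : ((e + 1 : ℕ) : F) = algebraMap K F ((e + 1 : ℕ) : K) := (map_natCast _ _).symm
  have hc0 : ((e + 1 : ℕ) : F) ≠ 0 := hcast ▸ (_root_.map_ne_zero _).mpr hne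
  have hmain0 : main ≠ 0 := mul_ne_zero (mul_ne_zero hc0 (pow_ne_zero _ hπ0)) hw0
  have hmain : P.ord main = e := by
    simp only [main]
    rw [P.ord_mul (mul_ne_zero hc0 (pow_ne_zero _ hπ0)) hw0, P.ord_mul hc0 (pow_ne_zero _ hπ0),
      hcast, ord_algebraMap_const, ord_pow', hπ, hw]
    omega
  have hrest : π ^ (e + 1) * g = 0 ∨ P.ord main < P.ord (π ^ (e + 1) * g) := by
    by_cases hg0 : g = 0
    · exact Or.inl (by simp [hg0])
    refine Or.inr ?_
    rw [P.ord_mul (pow_ne_zero _ hπ0) hg0, ord_pow', hπ, hmain]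
    have := hg.le_ord hg0
    omega
  refine ⟨main + π ^ (e + 1) * g, add_ne_zero_of_ord_lt P hmain0 hrest, ?_, ?_⟩
  · rw [ord_add_eq_left P hmain0 hrest, hmain, he]
    omega
  · have : y = w * π ^ (e + 1) := by simp only [w]; field_simp
    conv_lhs => rw [this]
    rw [Derivation.leibniz, Derivation.leibniz_pow, hDw, Nat.add_sub_cancel]
    simp only [main, add_smul, mul_smul, ← Nat.cast_smul_eq_nsmul F]
    rw [smul_comm w, smul_comm w]

omit [IsAlgClosed K] [IsFunctionField1 K F] [CharZero K] in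
theorem exists_dCoord_eq (P : Place K F) : ∃ π : F, P.ord π = 1 ∧ P.dCoord = D K F π :=
  ⟨_, P.ord_coe_irreducible
    (IsDiscreteValuationRing.exists_irreducible P.toValuationSubring).choose_spec, rfl⟩

theorem dCoordGenerates (P : Place K F) : P.DCoordGenerates := by
  obtain ⟨π, hπ, hd⟩ := exists_dCoord_eq P
  exact ⟨hd ▸ span_D_eq_top' (transcendental_of_ord_eq_one hπ)⟩

omit [IsAlgClosed K] in
theorem nontrivial_kaehler : Nontrivial Ω[F⁄K] := by
  obtain ⟨t, ht, -⟩ := IsFunctionField1.exists_finite (K := K) (F := F)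
  exact ⟨⟨_, _, D_ne_zero' ht⟩⟩

/-- The order of a differential can be computed with any uniformizer. -/
theorem ordDifferential_smul_D (hπ : P.ord π = 1) (f : F) :
    P.ordDifferential (f • D K F π) = P.ord f := by
  have := dCoordGenerates P
  have := nontrivial_kaehler (K := K) (F := F)
  obtain ⟨ρ, hρ, hd⟩ := exists_dCoord_eq P
  obtain ⟨f', hf'0, hf', hDf⟩ := exists_D_eq hρ (x := π) (by omega)
  rw [Place.ordDifferential, P.differentialCoeff_unique (f := f * f')
    (by rw [hd, mul_smul, ← hDf])]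
  by_cases hf : f = 0
  · simp [hf]
  · rw [P.ord_mul hf hf'0, hf', hπ, sub_self, add_zero]

theorem ordDifferential_smul (P : Place K F) {a : F} (ha : a ≠ 0) {ω : Ω[F⁄K]} (hω : ω ≠ 0) :
    P.ordDifferential (a • ω) = P.ord a + P.ordDifferential ω := by
  obtain ⟨π, hπ, -⟩ := exists_dCoord_eq P
  obtain ⟨f, rfl⟩ := exists_eq_smul_D (transcendental_of_ord_eq_one hπ) ω
  have hf : f ≠ 0 := by rintro rfl; simp at hω
  rw [smul_smul, ordDifferential_smul_D hπ, ordDifferential_smul_D hπ, P.ord_mul ha hf]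

theorem ordDifferential_D_eq {x : F} (h : P.ord x ≠ 0) :
    P.ordDifferential (D K F x) = P.ord x - 1 := by
  obtain ⟨π, hπ, -⟩ := exists_dCoord_eq P
  obtain ⟨f, -, hf, hD⟩ := exists_D_eq hπ h
  rw [hD, ordDifferential_smul_D hπ, hf]

section Line

variable {L : Type*} [Field L] [Algebra K L] [Algebra L F] [IsScalarTower K L F]
  [FiniteDimensional L F] [Algebra.IsSeparable L F] {u : L}

/-- The divisor of `du`. -/
theorem ordDifferential_D_gen (hu : IsGen K u) (Q : Place K F) :
    Q.ordDifferential (D K F (algebraMap L F u)) = lineCanonical (F := F) hu Q := by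
  simp only [lineCanonical, Finsupp.add_apply, Finsupp.smul_apply, smul_eq_mul, ramDivisor_apply]
  by_cases hQ : FinAt u Q
  · have hQz := hQ.mem_zerosAt hu
    set c := valueAt Q (algebraMap L F u)
    have hD : D K F (algebraMap L F u) = D K F (algebraMap L F u - algebraMap K F c) := by simp
    have he := eAt_pos hQz
    rw [hD, ordDifferential_D_eq (by rw [← cast_eAt hQz]; omega), ← cast_eAt hQz,
      ramIdx_of_mem_zerosAt hQz, poleDivisor_of_finAt hu hQ]
    omega
  · have hQz := (mem_zerosAt_inv_iff hu).mpr hQ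
    have he := eAt_pos hQz
    have hord := cast_eAt_inv hu hQz
    rw [ordDifferential_D_eq (by omega), ramIdx_of_mem_zerosAt_inv hu hQz,
      poleDivisor_of_mem hQz]
    omega

theorem exists_smul_D_gen (hu : IsGen K u) {ω : Ω[F⁄K]} (hω : ω ≠ 0) :
    ∃ a : F, a ≠ 0 ∧ ω = a • D K F (algebraMap L F u) ∧
      ∀ Q : Place K F, Q.ordDifferential ω = Q.ord a + lineCanonical (F := F) hu Q := by
  obtain ⟨a, rfl⟩ := exists_eq_smul_D (hu.transcendental_map (F := F)) ω
  have ha : a ≠ 0 := by rintro rfl; simp at hω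
  refine ⟨a, ha, rfl, fun Q => ?_⟩
  rw [ordDifferential_smul Q ha (D_ne_zero' (hu.transcendental_map (F := F))),
    ordDifferential_D_gen hu]

end Line

instance hasCanonicalDivisor : HasCanonicalDivisor (K := K) (F := F) := by
  refine ⟨fun ω hω => ?_⟩
  obtain ⟨t, ht, hfd⟩ := IsFunctionField1.exists_finite (K := K) (F := F)
  have := isSeparable_adjoin' ht
  obtain ⟨a, -, -, h⟩ := exists_smul_D_gen (isGen_gen ht) hω
  exact ⟨divisorOf a + lineCanonical (F := F) (isGen_gen ht), fun Q => by simp [h Q]⟩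

theorem degree_canonicalDivisor {ω : Ω[F⁄K]} (hω : ω ≠ 0) :
    Divisor.degree (canonicalDivisorOf hω) = 2 * (genusFF K F : ℤ) - 2 := by
  obtain ⟨t, ht, hfd⟩ := IsFunctionField1.exists_finite (K := K) (F := F)
  have := isSeparable_adjoin' ht
  have hu := isGen_gen (K := K) ht
  obtain ⟨a, -, -, h⟩ := exists_smul_D_gen hu hω
  have : canonicalDivisorOf hω = divisorOf a + lineCanonical (F := F) hu :=
    Finsupp.ext fun Q => by simp [canonicalDivisorOf_apply, h Q]
  rw [this, map_add, degree_divisorOf, degree_lineCanonical hu (isTame_of_charZero hu), zero_add]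

/-- The Prelude's differential genus equals `genusFF`. -/
theorem genus_eq_genusFF : AlgebraicCurve.genus K F = genusFF K F := by
  classical
  have := nontrivial_kaehler (K := K) (F := F)
  have hex : ∃ ω : Ω[F⁄K], ω ≠ 0 := exists_ne 0
  rw [AlgebraicCurve.genus, dif_pos hex, degree_canonicalDivisor]
  omega

end FermatAgent.Curve.Diff
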