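import Mathlib.RingTheory.Polynomial.Basic
import Mathlib.LinearAlgebra.Dimension.Constructions
import Mathlib.LinearAlgebra.FreeModule.Basic
import Mathlib.LinearAlgebra.FiniteDimensional.Basic

/-!
# Reduced bases of filtered free `K[X]`-modules

If a free `K[X]`-module of finite rank carries an exhaustive filtration by `K`-subspaces for which
multiplication by `X` shifts the degree by exactly one, it has a basis `b` with weights `r` such
that the degree of `∑ pᵢ bᵢ` is `max (deg pᵢ + rᵢ)` (no cancellation of leading terms).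
-/

set_option autoImplicit false

noncomputable section

open Polynomial

namespace FermatAgent.Curve.Diff

variable (K V : Type*) [Field K] [AddCommGroup V] [Module K[X] V] [Module K V]
  [IsScalarTower K K[X] V]

/-- An exhaustive filtration of a `K[X]`-module, compatible with multiplication by `X`. -/
structure XFiltration where
  W : ℤ → Submodule K V
  mono : Monotone W
  neg_one : W (-1) = ⊥
  exhaust : ∀ v : V, ∃ m : ℕ, v ∈ W m
  X_smul_mem_iff : ∀ (m : ℤ) (v : V), (X : K[X]) • v ∈ W (m + 1) ↔ v ∈ W m

namespace XFiltration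

variable {K V} (Fl : XFiltration K V) {ι : Type*} [Fintype ι]

omit [IsScalarTower K K[X] V] in
theorem eq_zero_of_neg {v : V} {m : ℤ} (hm : m < 0) (hv : v ∈ Fl.W m) : v = 0 := by
  have := Fl.mono (by omega : m ≤ -1) hv
  rwa [Fl.neg_one, Submodule.mem_bot] at this

omit [IsScalarTower K K[X] V] in
theorem X_pow_smul_mem_iff (k : ℕ) (m : ℤ) (v : V) :
    (X ^ k : K[X]) • v ∈ Fl.W (m + k) ↔ v ∈ Fl.W m := by
  induction k generalizing m with
  | zero => simp
  | succ k ih =>
    rw [pow_succ', mul_smul, Nat.cast_succ, ← add_assoc, Fl.X_smul_mem_iff, ih]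

/-- The leading terms of `b`, with respect to the weights `r`, are linearly independent. -/
def LeadingIndep (b : ι → V) (r : ι → ℕ) : Prop :=
  ∀ (M : ℕ) (c : ι → K), (∀ i, c i ≠ 0 → r i ≤ M) →
    (∑ i, C (c i) • (X ^ (M - r i) : K[X]) • b i) ∈ Fl.W (M - 1) → ∀ i, c i = 0

/-- A weighted basis computing the filtration. -/
structure IsReduced (b : ι → V) (r : ι → ℕ) : Prop where
  mem : ∀ i, b i ∈ Fl.W (r i)
  leading : Fl.LeadingIndep b r

variable {Fl} {b : ι → V} {r : ι → ℕ}

theorem smul_mem_of_natDegree_le {v : V} {k : ℕ} (hv : v ∈ Fl.W k) {p : K[X]} {m : ℤ}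
    (hp : (p.natDegree : ℤ) + k ≤ m) : p • v ∈ Fl.W m := by
  rw [p.as_sum_range_C_mul_X_pow, Finset.sum_smul]
  refine Submodule.sum_mem _ fun i hi => ?_
  rw [mul_smul, ← Polynomial.algebraMap_eq, algebraMap_smul]
  refine Submodule.smul_mem _ _ (Fl.mono ?_ ((Fl.X_pow_smul_mem_iff i k v).mpr hv))
  rw [Finset.mem_range] at hi
  omega

theorem sum_smul_mem (hb : ∀ i, b i ∈ Fl.W (r i)) {p : ι → K[X]} {m : ℤ}
    (hp : ∀ i, p i = 0 ∨ ((p i).natDegree : ℤ) + r i ≤ m) : ∑ i, p i • b i ∈ Fl.W m := by
  refine Submodule.sum_mem _ fun i _ => ?_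
  rcases hp i with h | h
  · simp [h]
  · exact smul_mem_of_natDegree_le (hb i) h

theorem IsReduced.mem_iff (h : Fl.IsReduced b r) (p : ι → K[X]) (m : ℤ) :
    ∑ i, p i • b i ∈ Fl.W m ↔ ∀ i, p i = 0 ∨ ((p i).natDegree : ℤ) + r i ≤ m := by
  classical
  refine ⟨fun hmem => ?_, sum_smul_mem h.mem⟩
  by_contra hcon
  simp only [not_forall, not_or] at hcon
  obtain ⟨i₀, hi₀, hi₀'⟩ := hcon
  set s := Finset.univ.filter fun i => p i ≠ 0
  obtain ⟨j, hj, hjmax⟩ := s.exists_max_image (fun i => (p i).natDegree + r i)
    ⟨i₀, by simp [s, hi₀]⟩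
  set M := (p j).natDegree + r j with hM
  have hmM : m ≤ (M : ℤ) - 1 := by
    have := hjmax i₀ (by simp [s, hi₀])
    omega
  set c : ι → K := fun i => if r i ≤ M then (p i).coeff (M - r i) else 0 with hc
  have hlow : ∀ i, p i • b i - C (c i) • (X ^ (M - r i) : K[X]) • b i ∈ Fl.W (M - 1) := by
    intro i
    rw [← mul_smul, ← sub_smul]
    by_cases hpi : p i = 0
    · have : c i = 0 := by simp [hc, hpi]
      simp [hpi, this]
    have hle : (p i).natDegree + r i ≤ M := hjmax i (by simp [s, hpi])
    have hci : c i = (p i).coeff (M - r i) := by simp [hc, show r i ≤ M by omega]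
    rw [hci]
    by_cases h0 : p i - C ((p i).coeff (M - r i)) * X ^ (M - r i) = 0
    · simp [h0]
    refine smul_mem_of_natDegree_le (h.mem i) ?_
    have hdeg : (p i - C ((p i).coeff (M - r i)) * X ^ (M - r i)).natDegree < M - r i := by
      rw [natDegree_lt_iff_degree_lt h0, degree_lt_iff_coeff_zero]
      intro k hk
      rw [coeff_sub, coeff_C_mul_X_pow]
      split_ifs with hkm
      · rw [hkm, sub_self]
      · rw [sub_zero]
        exact coeff_eq_zero_of_natDegree_lt (by omega)
    omega
  have hlead : (∑ i, C (c i) • (X ^ (M - r i) : K[X]) • b i) ∈ Fl.W (M - 1) := by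
    have := Submodule.sub_mem _ (Fl.mono hmM hmem)
      (Submodule.sum_mem _ (t := Finset.univ) fun i _ => hlow i)
    rwa [Finset.sum_sub_distrib, sub_sub_cancel] at this
  have hzero := h.leading M c (fun i hi => by
    by_contra hri
    simp [hc, hri] at hi) hlead j
  have hpj : p j ≠ 0 := by simpa [s] using hj
  refine leadingCoeff_ne_zero.mpr hpj ?_
  simp only [hc] at hzero
  rwa [if_pos (by omega : r j ≤ M), show M - r j = (p j).natDegree by omega] at hzero

end XFiltration

open XFiltration in
/-- Every filtered free module of finite rank has a reduced basis. -/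
theorem XFiltration.exists_reduced {K V : Type*} [Field K] [AddCommGroup V] [Module K[X] V]
    [Module K V] [IsScalarTower K K[X] V] (Fl : XFiltration K V) {n : ℕ}
    (b₀ : Module.Basis (Fin n) K[X] V) :
    ∃ (b : Module.Basis (Fin n) K[X] V) (r : Fin n → ℕ), Fl.IsReduced (⇑b) r := by
  classical
  have hex : ∃ S, ∃ (b : Module.Basis (Fin n) K[X] V) (r : Fin n → ℕ),
      (∀ i, b i ∈ Fl.W (r i)) ∧ ∑ i, r i = S := by
    choose m hm using fun i => Fl.exhaust (b₀ i)
    exact ⟨_, b₀, m, hm, rfl⟩
  obtain ⟨b, r, hb, hS⟩ := Nat.find_spec hex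
  refine ⟨b, r, hb, fun M c hc hmem => ?_⟩
  by_contra hcon
  push Not at hcon
  obtain ⟨i₀, hi₀⟩ := hcon
  obtain ⟨j, hj, hjmax⟩ := (Finset.univ.filter fun i => c i ≠ 0).exists_max_image r
    ⟨i₀, by simp [hi₀]⟩
  rw [Finset.mem_filter] at hj
  have hrjM : r j ≤ M := hc j hj.2
  set v : V := ∑ i, C (c i) • (X ^ (r j - r i) : K[X]) • b i with hv
  have hvmem : v ∈ Fl.W (r j - 1) := by
    refine (Fl.X_pow_smul_mem_iff (M - r j) _ v).mp ?_
    rw [show (r j : ℤ) - 1 + ((M - r j : ℕ) : ℤ) = M - 1 by omega]
    convert hmem using 1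
    rw [hv, Finset.smul_sum]
    refine Finset.sum_congr rfl fun i _ => ?_
    by_cases hci : c i = 0
    · simp [hci]
    have := hjmax i (by simp [hci])
    rw [smul_comm, ← mul_smul (X ^ (M - r j)), ← pow_add]
    congr 3
    omega
  have hrepr : b.repr v j = C (c j) := by
    rw [hv, map_sum, Finsupp.finsetSum_apply, Finset.sum_eq_single j]
    · simp
    · intro i _ hij
      simp [hij]
    · simp
  by_cases hr0 : r j = 0
  · have : v = 0 := Fl.eq_zero_of_neg (by omega) hvmem
    rw [this, map_zero, Finsupp.zero_apply] at hrepr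
    exact hj.2 (C_eq_zero.mp hrepr.symm)
  · have hu : IsUnit (b.repr v j) := hrepr ▸ isUnit_C.mpr (isUnit_iff_ne_zero.mpr hj.2)
    have hli : LinearIndependent K[X] (Function.update (⇑b) j v) := by
      rw [Fintype.linearIndependent_iff]
      intro g hg
      have key : ∀ k, g j * b.repr v k + (if k = j then 0 else g k) = 0 := by
        intro k
        have := congrArg (fun w => b.repr w k) hg
        simp only [map_sum, map_smul, Finsupp.finsetSum_apply, Finsupp.smul_apply, smul_eq_mul,
          map_zero, Finsupp.zero_apply] at this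
        rw [← Finset.add_sum_erase _ _ (Finset.mem_univ j), Function.update_self] at this
        refine Eq.trans ?_ this
        congr 1
        by_cases hk : k = j
        · rw [if_pos hk, Finset.sum_eq_zero]
          intro i hi
          rw [Finset.mem_erase] at hi
          rw [Function.update_of_ne hi.1, b.repr_self, hk,
            Finsupp.single_eq_of_ne (Ne.symm hi.1), mul_zero]
        · rw [if_neg hk, Finset.sum_eq_single k]
          · rw [Function.update_of_ne hk, b.repr_self, Finsupp.single_eq_same, mul_one]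
          · intro i hi hik
            rw [Finset.mem_erase] at hi
            rw [Function.update_of_ne hi.1, b.repr_self,
              Finsupp.single_eq_of_ne (Ne.symm hik), mul_zero]
          · intro h
            exact absurd (Finset.mem_erase.mpr ⟨hk, Finset.mem_univ k⟩) h
      have hgj : g j = 0 := by
        have h := key j
        rw [if_pos rfl, add_zero] at h
        exact hu.mul_left_eq_zero.mp h
      intro i
      by_cases hi : i = j
      · exact hi ▸ hgj
      · have h := key i
        rwa [hgj, zero_mul, zero_add, if_neg hi] at h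
    have hspan : ⊤ ≤ Submodule.span K[X] (Set.range (Function.update (⇑b) j v)) := by
      have hne : ∀ i, i ≠ j → b i ∈ Submodule.span K[X] (Set.range (Function.update (⇑b) j v)) :=
        fun i hi => Submodule.subset_span ⟨i, Function.update_of_ne hi _ _⟩
      have hbj : b j ∈ Submodule.span K[X] (Set.range (Function.update (⇑b) j v)) := by
        have hsum := b.sum_repr v
        rw [← Finset.add_sum_erase _ _ (Finset.mem_univ j)] at hsum
        have hv' : v ∈ Submodule.span K[X] (Set.range (Function.update (⇑b) j v)) :=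
          Submodule.subset_span ⟨j, Function.update_self _ _ _⟩
        rw [← Submodule.smul_mem_iff_of_isUnit _ hu, eq_sub_of_add_eq hsum]
        exact Submodule.sub_mem _ hv' (Submodule.sum_mem _ fun i hi =>
          Submodule.smul_mem _ _ (hne i (Finset.mem_erase.mp hi).1))
      rw [← b.span_eq, Submodule.span_le]
      rintro _ ⟨i, rfl⟩
      by_cases hi : i = j
      · exact hi ▸ hbj
      · exact hne i hi
    refine Nat.find_min hex (m := ∑ i, Function.update r j (r j - 1) i) ?_
      ⟨Module.Basis.mk hli hspan, Function.update r j (r j - 1), fun i => ?_, rfl⟩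
    · rw [← hS]
      refine Finset.sum_lt_sum (fun i _ => ?_) ⟨j, Finset.mem_univ j, ?_⟩
      · by_cases hi : i = j
        · subst hi; simp
        · simp [hi]
      · simp only [Function.update_self]; omega
    · rw [Module.Basis.mk_apply]
      by_cases hi : i = j
      · subst hi
        simp only [Function.update_self]
        rwa [Nat.cast_sub (by omega), Nat.cast_one]
      · simp only [Function.update_of_ne hi]
        exact hb i

end FermatAgent.Curve.Diff
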