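import Fermat.Agent.Curve.Diff.Line
import Fermat.Agent.Curve.Diff.Reduced
import Mathlib.RingTheory.Trace.Basic
import Mathlib.LinearAlgebra.FreeModule.PID

/-!
# The lattice pair of `F/K(u)` and its trace dual

A basis `b` of `F/K(u)` with weights `r` such that `∑ qᵢ bᵢ` is regular at the finite places with
poles of order `≤ m` at infinity iff each `qᵢ` is a polynomial of degree `≤ m - rᵢ`; the trace
dual basis then plays the same role, in the tame case, for the divisor `Ram`.
-/

set_option autoImplicit false

noncomputable section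

open AlgebraicCurve IntermediateField Polynomial

namespace FermatAgent.Curve.Diff

variable {K F : Type*} [Field K] [Field F] [Algebra K F] [IsAlgClosed K] [IsFunctionField1 K F]
variable {L : Type*} [Field L] [Algebra K L] [Algebra L F] [IsScalarTower K L F]
variable {u : L}

/-- Bounded poles at infinity. -/
def InfGE (K : Type*) [Field K] [Algebra K F] [IsAlgClosed K] [IsFunctionField1 K F]
    (u : L) (m : ℤ) (f : F) : Prop :=
  ∀ Q ∈ zerosAt (F := F) u⁻¹ (0 : K), OrdGE Q (-(m * eAt u⁻¹ (0 : K) Q)) f

omit [Algebra K L] [IsScalarTower K L F] in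
theorem InfGE.mono {m m' : ℤ} (h : m ≤ m') {f : F} (hf : InfGE K u m f) : InfGE K u m' f :=
  fun Q hQ => (hf Q hQ).mono (neg_le_neg (mul_le_mul_of_nonneg_right h (by omega)))

/-- A reduced basis of the lattice pair. -/
structure IsLatticeBasis {n : ℕ} (K : Type*) [Field K] [Algebra K F] [Algebra K L]
    [IsScalarTower K L F] [IsAlgClosed K] [IsFunctionField1 K F]
    (u : L) (b : Module.Basis (Fin n) L F) (r : Fin n → ℕ) : Prop where
  mem_iff : ∀ (f : F) (m : ℤ), (FinReg K u f ∧ InfGE K u m f) ↔
    ∀ i, ∃ p : K[X], b.repr f i = aeval u p ∧ (p = 0 ∨ (p.natDegree : ℤ) + r i ≤ m)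

theorem exists_natBound (f : F) : ∃ M : ℕ, ∀ Q : Place K F, OrdGE Q (-(M : ℤ)) f := by
  classical
  refine ⟨(divisorOf (K := K) f).support.sup fun Q => (Q.ord f).natAbs, fun Q => Or.inr ?_⟩
  by_cases h : Q.ord f = 0
  · omega
  · have := Finset.le_sup (f := fun Q => (Q.ord f).natAbs)
      (Finsupp.mem_support_iff.mpr (show divisorOf (K := K) f Q ≠ 0 by simpa using h))
    omega

omit [Algebra K L] [IsScalarTower K L F] in
theorem exists_infGE (f : F) : ∃ m : ℕ, InfGE K u (m : ℤ) f := by
  obtain ⟨M, hM⟩ := exists_natBound (K := K) f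
  refine ⟨M, fun Q hQ => (hM Q).mono ?_⟩
  have : (1 : ℤ) ≤ eAt u⁻¹ (0 : K) Q := by exact_mod_cast eAt_pos hQ
  nlinarith

omit [IsAlgClosed K] in
theorem exists_common_den (hu : IsGen K u) {ι : Type*} (s : Finset ι) (g : ι → L) :
    ∃ d : K[X], d ≠ 0 ∧ ∀ i ∈ s, ∃ p : K[X], aeval u d * g i = aeval u p := by
  classical
  induction s using Finset.induction_on with
  | empty => exact ⟨1, one_ne_zero, fun i hi => absurd hi (Finset.notMem_empty i)⟩
  | insert a s ha ih =>
    obtain ⟨d, hd, hdp⟩ := ih
    obtain ⟨A, B, hB, hAB⟩ := hu.exists_polynomial (g a)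
    have hB' : aeval u B ≠ 0 := fun h0 => hu.transcendental ⟨_, hB, h0⟩
    refine ⟨d * B, mul_ne_zero hd hB, fun i hi => ?_⟩
    rcases Finset.mem_insert.mp hi with rfl | hi
    · exact ⟨d * A, by rw [hAB, map_mul, map_mul]; field_simp⟩
    · obtain ⟨p, hp⟩ := hdp i hi
      exact ⟨p * B, by rw [map_mul, map_mul, mul_right_comm, hp]⟩

omit [IsAlgClosed K] [IsFunctionField1 K F] [Algebra K L] [IsScalarTower K L F] in
theorem FinReg.mul {f g : F} (hf : FinReg K u f) (hg : FinReg K u g) : FinReg K u (f * g) :=
  fun Q hQ => by simpa using (hf Q hQ).mul (hg Q hQ)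

theorem FinReg.isPolynomial_trace [FiniteDimensional L F] (hu : IsGen K u) {f : F}
    (hf : FinReg K u f) : ∃ p : K[X], Algebra.trace L F f = aeval u p :=
  exists_eq_aeval_of_finReg (F := F) hu (finReg_of_forall_regAt hu fun _ =>
    (regAt_trace_and_valueAt hu (hf.regAt _)).1)

theorem exists_finReg_basis [FiniteDimensional L F] (hu : IsGen K u) :
    ∃ b : Module.Basis (Fin (Module.finrank L F)) L F, ∀ i, FinReg K u (b i) := by
  let b₀ := Module.finBasis L F
  choose s hs hsreg _ using fun i => exists_multiplier hu (b₀ i)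
  refine ⟨b₀.unitsSMul fun i => Units.mk0 (aeval u (s i)) fun h0 =>
    hu.transcendental ⟨_, hs i, h0⟩, fun i => ?_⟩
  rw [Module.Basis.unitsSMul_apply, Units.smul_def, Units.val_mk0, Algebra.smul_def]
  exact hsreg i

theorem exists_latticeBasis [FiniteDimensional L F] [Algebra.IsSeparable L F] (hu : IsGen K u) :
    ∃ (b : Module.Basis (Fin (Module.finrank L F)) L F) (r : Fin (Module.finrank L F) → ℕ),
      IsLatticeBasis K u b r := by
  classical
  set n := Module.finrank L F
  let : Algebra K[X] F := (aeval (algebraMap L F u)).toAlgebra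
  have hX : ∀ (p : K[X]) (f : F), p • f = algebraMap L F (aeval u p) * f := fun p f => by
    rw [← aeval_algebraMap_apply]; rfl
  have hXinj : ∀ p : K[X], p ≠ 0 → algebraMap L F (aeval u p) ≠ 0 := fun p hp =>
    (_root_.map_ne_zero _).mpr fun h0 => hu.transcendental ⟨_, hp, h0⟩
  have : IsScalarTower K K[X] F := IsScalarTower.of_algebraMap_eq fun a => by
    show algebraMap K F a = aeval (algebraMap L F u) (C a)
    rw [aeval_C]
  let R : Submodule K[X] F :=
    { carrier := {f | FinReg K u f}
      zero_mem' := fun Q _ => OrdGE.zero 0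
      add_mem' := fun hf hg Q hQ => (hf Q hQ).add (hg Q hQ)
      smul_mem' := fun p f hf => by
        show FinReg K u (p • f)
        rw [hX]
        exact (finReg_aeval p).mul hf }
  have hRtf : Module.IsTorsionFree K[X] R := by
    refine ⟨fun p hp f g hfg => ?_⟩
    have hp0 : p ≠ 0 := hp.ne_zero
    have : p • (f : F) = p • (g : F) := congrArg Subtype.val hfg
    rw [hX, hX] at this
    exact Subtype.ext (mul_left_cancel₀ (hXinj p hp0) this)
  obtain ⟨b0, hb0⟩ := exists_finReg_basis (F := F) hu
  choose φ hφ using fun (f : R) (i : Fin n) =>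
    (f.2.mul (hb0 i)).isPolynomial_trace hu
  have hinjL : Function.Injective (aeval u : K[X] →ₐ[K] L) := by
    rw [injective_iff_map_eq_zero]
    exact fun p hp => by_contra fun h0 => hu.transcendental ⟨p, h0, hp⟩
  let Φ : R →ₗ[K[X]] (Fin n → K[X]) :=
    { toFun := φ
      map_add' := fun f g => funext fun i => hinjL (by
        rw [Pi.add_apply, map_add, ← hφ, ← hφ, ← hφ, Submodule.coe_add, add_mul, map_add])
      map_smul' := fun p f => funext fun i => hinjL (by
        rw [RingHom.id_apply, Pi.smul_apply, smul_eq_mul, map_mul, ← hφ, ← hφ,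
          Submodule.coe_smul, hX, mul_assoc, ← Algebra.smul_def, map_smul, smul_eq_mul]) }
  have hΦ : Function.Injective Φ := by
    rw [injective_iff_map_eq_zero]
    intro f hf
    refine Subtype.ext ((traceForm_nondegenerate L F).1 _ fun g => ?_)
    have h0 : ∀ i, Algebra.traceForm L F (f : F) (b0 i) = 0 := fun i => by
      rw [Algebra.traceForm_apply, hφ f i, show φ f i = 0 from congrFun hf i, map_zero]
    have : Algebra.traceForm L F (f : F) = 0 := b0.ext fun i => by simpa using h0 i
    rw [this, LinearMap.zero_apply]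
  have : Module.Finite K[X] R := Module.Finite.of_injective Φ hΦ
  obtain ⟨k, bR⟩ : Σ k, Module.Basis (Fin k) K[X] R := Module.basisOfFiniteTypeTorsionFree'
  have hcoe : ∀ q : Fin k → K[X],
      ((∑ i, q i • bR i : R) : F) = ∑ i, algebraMap L F (aeval u (q i)) * (bR i : F) := fun q => by
    simp [hX]
  have hli : LinearIndependent L (fun i => (bR i : F)) := by
    rw [Fintype.linearIndependent_iff]
    intro g hg
    obtain ⟨d, hd, hdp⟩ := exists_common_den hu Finset.univ g
    choose p hp using fun i => hdp i (Finset.mem_univ i)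
    have hsum : ∑ i, p i • bR i = 0 := by
      refine Subtype.ext ?_
      rw [hcoe, Submodule.coe_zero]
      have := congrArg (fun x => algebraMap L F (aeval u d) * x) hg
      simpa [Finset.mul_sum, Algebra.smul_def, ← hp, mul_assoc] using this
    intro i
    have h0 := Fintype.linearIndependent_iff.mp bR.linearIndependent p hsum i
    have := hp i
    rw [h0, map_zero, mul_eq_zero] at this
    exact this.resolve_left fun h => hu.transcendental ⟨_, hd, h⟩
  have hspan : ⊤ ≤ Submodule.span L (Set.range fun i => (bR i : F)) := by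
    intro f _
    obtain ⟨s, hs, hsreg, -⟩ := exists_multiplier hu f
    have hmem : algebraMap L F (aeval u s) * f ∈
        Submodule.span L (Set.range fun i => (bR i : F)) := by
      have h := congrArg Subtype.val (bR.sum_repr ⟨_, hsreg⟩)
      rw [hcoe] at h
      rw [← show _ = algebraMap L F (aeval u s) * f from h]
      refine Submodule.sum_mem _ fun i _ => ?_
      rw [← Algebra.smul_def]
      exact Submodule.smul_mem _ _ (Submodule.subset_span ⟨i, rfl⟩)
    rw [← Algebra.smul_def] at hmem
    exact (Submodule.smul_mem_iff _ fun h0 => hu.transcendental ⟨_, hs, h0⟩).mp hmem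
  have hk : k = n := by
    simpa [n] using (Module.finrank_eq_card_basis (Module.Basis.mk hli hspan)).symm
  subst hk
  let Fl : XFiltration K R :=
    { W := fun m =>
        { carrier := {f | InfGE K u m (f : F)}
          zero_mem' := fun Q _ => OrdGE.zero _
          add_mem' := fun hf hg Q hQ => by
            simpa using (hf Q hQ).add (hg Q hQ)
          smul_mem' := fun a f hf Q hQ => by
            have := (ordGE_algebraMap (v := Q) a).mul (hf Q hQ)
            rw [zero_add, ← Algebra.smul_def] at this
            exact this }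
      mono := fun m m' h f hf => InfGE.mono h hf
      neg_one := by
        refine (Submodule.eq_bot_iff _).mpr fun f hf => Subtype.ext ?_
        obtain ⟨Q, hQ⟩ := zerosAt_nonempty (F := F) hu.inv (0 : K)
        by_contra hne
        have hne' : (f : F) ≠ 0 := hne
        obtain ⟨a, ha⟩ := (forall_ord_nonneg_iff (K := K) (f := (f : F))).mp fun P => by
          by_cases hP : FinAt u P
          · exact (f.2 P hP).le_ord hne'
          · have := (hf P ((mem_zerosAt_inv_iff hu).mpr hP)).le_ord hne'
            omega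
        have h1 := (hf Q hQ).le_ord hne'
        rw [← ha, ord_algebraMap_const] at h1
        have := eAt_pos hQ
        omega
      exhaust := fun f => exists_infGE (f : F)
      X_smul_mem_iff := fun m f => by
        show InfGE K u (m + 1) (((X : K[X]) • f : R) : F) ↔ InfGE K u m (f : F)
        rw [Submodule.coe_smul, hX, aeval_X]
        refine forall₂_congr fun Q hQ => ?_
        by_cases hf0 : (f : F) = 0
        · simp [hf0, OrdGE]
        have hu0 : algebraMap L F u ≠ 0 := (_root_.map_ne_zero _).mpr hu.ne_zero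
        simp only [OrdGE, mul_eq_zero, hu0, hf0, or_false, false_or, Q.ord_mul hu0 hf0,
          cast_eAt_inv hu hQ]
        constructor <;> intro <;> linarith }
  obtain ⟨b, r, hb⟩ := Fl.exists_reduced bR
  have hcoe' : ∀ q : Fin n → K[X],
      ((∑ i, q i • b i : R) : F) = ∑ i, algebraMap L F (aeval u (q i)) * (b i : F) := fun q => by
    simp [hX]
  have hspan' : ⊤ ≤ Submodule.span L (Set.range fun i => (b i : F)) := by
    refine hspan.trans (Submodule.span_le.mpr ?_)
    rintro _ ⟨j, rfl⟩
    have h := congrArg Subtype.val (b.sum_repr (bR j))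
    rw [hcoe'] at h
    rw [SetLike.mem_coe, show (fun i => (bR i : F)) j = _ from h.symm]
    refine Submodule.sum_mem _ fun i _ => ?_
    rw [← Algebra.smul_def]
    exact Submodule.smul_mem _ _ (Submodule.subset_span ⟨i, rfl⟩)
  have hli' : LinearIndependent L (fun i => (b i : F)) :=
    linearIndependent_of_top_le_span_of_card_eq_finrank hspan' (by simp [n])
  refine ⟨Module.Basis.mk hli' hspan', r, ⟨fun f m => ⟨fun ⟨hf, hfm⟩ i => ?_, fun h => ?_⟩⟩⟩
  · refine ⟨b.repr ⟨f, hf⟩ i, ?_, (hb.mem_iff (b.repr ⟨f, hf⟩) m).mp ?_ i⟩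
    · have h1 := congrArg Subtype.val (b.sum_repr ⟨f, hf⟩)
      rw [hcoe'] at h1
      conv_lhs => rw [← show _ = f from h1]
      simp only [map_sum, ← Algebra.smul_def, map_smul, Finsupp.finsetSum_apply,
        Finsupp.smul_apply, smul_eq_mul]
      rw [Finset.sum_eq_single i]
      · rw [← Module.Basis.mk_apply hli' hspan' i, Module.Basis.repr_self,
          Finsupp.single_eq_same, mul_one]
      · intro j _ hji
        rw [← Module.Basis.mk_apply hli' hspan' j, Module.Basis.repr_self,
          Finsupp.single_eq_of_ne (Ne.symm hji), mul_zero]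
      · simp
    · rw [b.sum_repr]
      exact hfm
  · choose p hp hpd using h
    have hf : f = ((∑ i, p i • b i : R) : F) := by
      rw [hcoe']
      conv_lhs => rw [← (Module.Basis.mk hli' hspan').sum_repr f]
      refine Finset.sum_congr rfl fun i _ => ?_
      rw [Module.Basis.mk_apply, Algebra.smul_def, hp]
    exact ⟨hf ▸ (∑ i, p i • b i : R).2, hf ▸ (hb.mem_iff p m).mpr hpd⟩

namespace IsLatticeBasis

variable {n : ℕ} {b : Module.Basis (Fin n) L F} {r : Fin n → ℕ}

theorem finReg_iff (h : IsLatticeBasis K u b r) (f : F) :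
    FinReg K u f ↔ ∀ i, ∃ p : K[X], b.repr f i = aeval u p := by
  refine ⟨fun hf i => ?_, fun hp => ?_⟩
  · obtain ⟨m, hm⟩ := exists_infGE (K := K) (u := u) f
    exact ((h.mem_iff f m).mp ⟨hf, hm⟩ i).imp fun p hp => hp.1
  · choose p hp using hp
    refine ((h.mem_iff f (((Finset.univ.sup fun i => (p i).natDegree + r i : ℕ)) : ℤ)).mpr
      fun i => ⟨p i, hp i, Or.inr ?_⟩).1
    have := Finset.le_sup (f := fun i => (p i).natDegree + r i) (Finset.mem_univ i)
    omega

theorem finReg (h : IsLatticeBasis K u b r) (i : Fin n) : FinReg K u (b i) :=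
  (h.finReg_iff _).mpr fun j => ⟨if i = j then 1 else 0, by
    rw [b.repr_self, Finsupp.single_apply]; split_ifs <;> simp⟩

theorem infGE (h : IsLatticeBasis K u b r) (i : Fin n) : InfGE K u (r i : ℤ) (b i) :=
  ((h.mem_iff (b i) (r i : ℤ)).mpr fun j => by
    by_cases hij : i = j
    · exact ⟨1, by simp [hij], Or.inr (by simp [hij])⟩
    · exact ⟨0, by simp [hij], Or.inl rfl⟩).2

end IsLatticeBasis

end FermatAgent.Curve.Diff
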