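import Fermat.Agent.Curve.Basics.Degree
import Mathlib.RingTheory.Trace.Basic

/-!
# Local integral bases over a point of the line, and the trace modulo that point

`F` is a function field over the algebraically closed field `K` and `L = K(u)` a subfield over
which it is finite.  Over `u = c` the functions `xBasis (Q, i)` (order `i` at `Q`, order `≥ e` at
the other places over `c`) form a local integral basis, hence
`Tr(w)(c) = ∑ e_Q · w(Q)` for every `w` regular over `c`.
-/

set_option autoImplicit false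

noncomputable section

open AlgebraicCurve IntermediateField Polynomial

namespace FermatAgent.Curve.Diff

section OrdGE

variable {K F : Type*} [Field K] [Field F] [Algebra K F] (v : Place K F)

/-- `f` vanishes to order at least `m` at `v`. -/
def OrdGE (m : ℤ) (f : F) : Prop := f = 0 ∨ m ≤ v.ord f

variable {v}

theorem OrdGE.zero (m : ℤ) : OrdGE v m 0 := Or.inl rfl

theorem ordGE_zero_iff_mem {f : F} : OrdGE v 0 f ↔ f ∈ v.toValuationSubring :=
  (mem_iff_ord_nonneg v).symm

theorem OrdGE.mono {m m' : ℤ} (h : m' ≤ m) {f : F} (hf : OrdGE v m f) : OrdGE v m' f :=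
  hf.imp_right h.trans

theorem OrdGE.add {m : ℤ} {f g : F} (hf : OrdGE v m f) (hg : OrdGE v m g) :
    OrdGE v m (f + g) := by
  rcases hf with rfl | hf
  · simpa using hg
  rcases hg with rfl | hg
  · exact Or.inr (by simpa using hf)
  by_cases h : f + g = 0
  · exact Or.inl h
  · exact Or.inr ((le_min hf hg).trans (min_le_ord_add v h))

theorem OrdGE.neg {m : ℤ} {f : F} (hf : OrdGE v m f) : OrdGE v m (-f) := by
  rcases hf with rfl | hf
  · exact Or.inl neg_zero
  · exact Or.inr (by rwa [ord_neg])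

theorem OrdGE.sub {m : ℤ} {f g : F} (hf : OrdGE v m f) (hg : OrdGE v m g) :
    OrdGE v m (f - g) := by
  simpa [sub_eq_add_neg] using hf.add hg.neg

theorem OrdGE.sum {m : ℤ} {ι : Type*} (s : Finset ι) {f : ι → F}
    (h : ∀ i ∈ s, OrdGE v m (f i)) : OrdGE v m (∑ i ∈ s, f i) :=
  Finset.sum_induction f (OrdGE v m) (fun _ _ => OrdGE.add) (OrdGE.zero m) h

theorem OrdGE.mul {m m' : ℤ} {f g : F} (hf : OrdGE v m f) (hg : OrdGE v m' g) :
    OrdGE v (m + m') (f * g) := by
  rcases hf with rfl | hf
  · exact Or.inl (zero_mul g)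
  rcases hg with rfl | hg
  · exact Or.inl (mul_zero f)
  by_cases h : f * g = 0
  · exact Or.inl h
  · obtain ⟨hf0, hg0⟩ := mul_ne_zero_iff.mp h
    exact Or.inr (by rw [v.ord_mul hf0 hg0]; omega)

theorem ordGE_algebraMap (a : K) : OrdGE v 0 (algebraMap K F a) :=
  Or.inr (ord_algebraMap_const v a).ge

theorem OrdGE.le_ord {m : ℤ} {f : F} (hf : OrdGE v m f) (h : f ≠ 0) : m ≤ v.ord f :=
  hf.resolve_left h

variable (v) in
theorem aeval_mem {f : F} (hf : f ∈ v.toValuationSubring) (p : K[X]) :
    aeval f p ∈ v.toValuationSubring := by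
  rw [aeval_eq_sum_range]
  refine sum_mem fun i _ => ?_
  rw [Algebra.smul_def]
  exact mul_mem (v.algebraMap_mem' _) (pow_mem hf i)

theorem ordGE_sub_valueAt [IsAlgClosed K] [IsFunctionField1 K F] {f : F} (hf : OrdGE v 0 f) :
    OrdGE v 1 (f - algebraMap K F (valueAt v f)) := by
  rcases valueAt_spec v (ordGE_zero_iff_mem.mp hf) with h | h
  · exact Or.inl (sub_eq_zero.mpr h)
  · exact Or.inr h

theorem valueAt_eq_of_ordGE [IsAlgClosed K] [IsFunctionField1 K F] {f : F} {a : K}
    (h : OrdGE v 1 (f - algebraMap K F a)) : valueAt v f = a :=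
  valueAt_eq_of v (h.imp sub_eq_zero.mp fun h => by omega)

end OrdGE

variable {K F : Type*} [Field K] [Field F] [Algebra K F]
variable {L : Type*} [Field L] [Algebra K L] [Algebra L F] [IsScalarTower K L F]

/-- `u` is a transcendental generator of `L/K`. -/
structure IsGen (K : Type*) {L : Type*} [Field K] [Field L] [Algebra K L] (u : L) : Prop where
  transcendental : Transcendental K u
  top : K⟮u⟯ = ⊤

namespace IsGen

variable {u : L}

theorem transcendental_map (hu : IsGen K u) : Transcendental K (algebraMap L F u) :=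
  fun h => hu.transcendental ((isAlgebraic_algebraMap_iff (algebraMap L F).injective).mp h)

theorem finrank_adjoin (hu : IsGen K u) :
    Module.finrank K⟮algebraMap L F u⟯ F = Module.finrank L F := by
  let φ : L →ₐ[K] F := IsScalarTower.toAlgHom K L F
  have hmap : K⟮algebraMap L F u⟯ = φ.fieldRange := by
    rw [AlgHom.fieldRange_eq_map, ← hu.top, adjoin_map, Set.image_singleton]
    rfl
  rw [hmap]
  refine (Algebra.finrank_eq_of_equiv_equiv (AlgEquiv.ofInjectiveField φ).toRingEquiv
    (RingEquiv.refl F) ?_).symm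
  ext x
  rfl

theorem exists_polynomial (hu : IsGen K u) (q : L) :
    ∃ a b : K[X], b ≠ 0 ∧ q = aeval u a / aeval u b := by
  have hq : q ∈ K⟮u⟯ := hu.top ▸ IntermediateField.mem_top
  rw [mem_adjoin_simple_iff] at hq
  obtain ⟨a, b, h⟩ := hq
  by_cases hb : b = 0
  · exact ⟨0, 1, one_ne_zero, by simp [h, hb]⟩
  · exact ⟨a, b, hb, h⟩

end IsGen

variable [IsAlgClosed K] [IsFunctionField1 K F]
variable (u : L) (c : K)

/-- The places of `F` over the point `u = c`. -/
def zerosAt : Finset (Place K F) := zerosFinset (algebraMap L F u - algebraMap K F c)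

/-- The ramification index over `u = c`. -/
def eAt (Q : Place K F) : ℕ := (Q.ord (algebraMap L F u - algebraMap K F c)).toNat

variable {u c}

omit [IsAlgClosed K] [IsFunctionField1 K F] in
theorem uc_ne_zero (hu : IsGen K u) (c : K) : algebraMap L F u - algebraMap K F c ≠ 0 := by
  intro h
  exact hu.transcendental_map (F := F) (sub_eq_zero.mp h ▸ isAlgebraic_algebraMap c)

omit [Algebra K L] [IsScalarTower K L F] in
theorem eAt_pos {Q : Place K F} (hQ : Q ∈ zerosAt u c) : 0 < eAt u c Q := by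
  have := mem_zerosFinset.mp hQ
  simp only [eAt]
  omega

omit [Algebra K L] [IsScalarTower K L F] in
theorem cast_eAt {Q : Place K F} (hQ : Q ∈ zerosAt u c) :
    (eAt u c Q : ℤ) = Q.ord (algebraMap L F u - algebraMap K F c) :=
  Int.toNat_of_nonneg (mem_zerosFinset.mp hQ).le

theorem sum_eAt (hu : IsGen K u) (c : K) :
    ∑ Q ∈ zerosAt (F := F) u c, eAt u c Q = Module.finrank L F := by
  have h := sum_ord_zeros_sub_const (K := K) (hu.transcendental_map (F := F)) c
  rw [hu.finrank_adjoin] at h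
  have h2 : ((∑ Q ∈ zerosAt (F := F) u c, eAt u c Q : ℕ) : ℤ) = Module.finrank L F := by
    rw [Nat.cast_sum, ← h]
    exact Finset.sum_congr rfl fun Q hQ => cast_eAt hQ
  exact_mod_cast h2

omit [Algebra K L] [IsScalarTower K L F] in
theorem mem_and_valueAt_eq {Q : Place K F} (hQ : Q ∈ zerosAt u c) :
    algebraMap L F u ∈ Q.toValuationSubring ∧ valueAt Q (algebraMap L F u) = c := by
  have h := mem_zerosFinset.mp hQ
  refine ⟨?_, valueAt_eq_of Q (Or.inr h)⟩
  have h1 : algebraMap L F u - algebraMap K F c ∈ Q.toValuationSubring :=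
    (mem_iff_ord_nonneg Q).mpr (Or.inr h.le)
  simpa using add_mem h1 (Q.algebraMap_mem' c)

theorem ord_aeval_eq_zero {Q : Place K F} (hQ : Q ∈ zerosAt u c) {p : K[X]}
    (hp : p.eval c ≠ 0) :
    Q.ord (algebraMap L F (aeval u p)) = 0 ∧
      valueAt Q (algebraMap L F (aeval u p)) = p.eval c := by
  obtain ⟨hmem, hval⟩ := mem_and_valueAt_eq hQ
  have heq : algebraMap L F (aeval u p) = aeval (algebraMap L F u) p :=
    (aeval_algebraMap_apply F u p).symm
  have hv : valueAt Q (algebraMap L F (aeval u p)) = p.eval c := by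
    rw [heq, valueAt_aeval Q hmem, hval]
  have hmem' : algebraMap L F (aeval u p) ∈ Q.toValuationSubring :=
    heq ▸ aeval_mem Q hmem p
  refine ⟨le_antisymm ?_ (ord_nonneg_of_mem' Q hmem'), hv⟩
  by_contra hlt
  exact hp (hv ▸ (valueAt_eq_zero_iff Q hmem').mpr (Or.inr (by omega)))

/-- The order of an element of `K(u)` at the places over `c`, and its leading coefficient. -/
theorem exists_order (hu : IsGen K u) (c : K) {q : L} (hq : q ≠ 0) :
    ∃ (m : ℤ) (a : K), a ≠ 0 ∧ ∀ Q ∈ zerosAt (F := F) u c,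
      Q.ord (algebraMap L F q) = m * eAt u c Q ∧
      OrdGE Q (m * eAt u c Q + 1)
        (algebraMap L F q - algebraMap K F a * (algebraMap L F u - algebraMap K F c) ^ m) := by
  obtain ⟨A, B, hB, rfl⟩ := hu.exists_polynomial q
  have hA : A ≠ 0 := by rintro rfl; simp at hq
  obtain ⟨A1, hA1, hA1'⟩ := A.exists_eq_pow_rootMultiplicity_mul_and_not_dvd hA c
  obtain ⟨B1, hB1, hB1'⟩ := B.exists_eq_pow_rootMultiplicity_mul_and_not_dvd hB c
  rw [dvd_iff_isRoot, IsRoot.def] at hA1' hB1'
  set k := A.rootMultiplicity c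
  set l := B.rootMultiplicity c
  refine ⟨k - l, A1.eval c / B1.eval c, div_ne_zero hA1' hB1', fun Q hQ => ?_⟩
  obtain ⟨hoA, hvA⟩ := ord_aeval_eq_zero hQ hA1'
  obtain ⟨hoB, hvB⟩ := ord_aeval_eq_zero hQ hB1'
  set π := algebraMap L F u - algebraMap K F c with hπ
  have hπ0 : π ≠ 0 := uc_ne_zero hu c
  set a := algebraMap L F (aeval u A1)
  set b := algebraMap L F (aeval u B1)
  have hne : ∀ {p : K[X]}, p.eval c ≠ 0 → algebraMap L F (aeval u p) ≠ 0 := fun {p} hp h => by
    rw [map_eq_zero] at h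
    exact hu.transcendental ⟨p, fun h0 => hp (by simp [h0]), h⟩
  have ha0 : a ≠ 0 := hne hA1'
  have hb0 : b ≠ 0 := hne hB1'
  have hpi' : algebraMap L F (aeval u (X - C c)) = π := by
    simp [hπ, ← IsScalarTower.algebraMap_apply]
  have hfac : algebraMap L F (aeval u A / aeval u B) = π ^ ((k : ℤ) - l) * (a / b) := by
    conv_lhs => rw [hA1, hB1]
    simp only [map_mul, map_pow, map_div₀, hpi', zpow_sub₀ hπ0, zpow_natCast]
    rw [mul_div_mul_comm]
  have hord : Q.ord (a / b) = 0 := by rw [ord_div Q ha0 hb0, hoA, hoB, sub_zero]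
  have hval : valueAt Q (a / b) = A1.eval c / B1.eval c := by
    have hmema : a ∈ Q.toValuationSubring := (mem_iff_ord_nonneg Q).mpr (Or.inr hoA.ge)
    have hmemb : b⁻¹ ∈ Q.toValuationSubring :=
      (mem_iff_ord_nonneg Q).mpr (Or.inr (by rw [Q.ord_inv, hoB, neg_zero]))
    rw [div_eq_mul_inv, valueAt_mul Q hmema hmemb, valueAt_inv Q hoB, hvA, hvB, div_eq_mul_inv]
  have hπk : Q.ord (π ^ ((k : ℤ) - l)) = ((k : ℤ) - l) * eAt u c Q := by
    rw [Q.ord_zpow, cast_eAt hQ]
  refine ⟨?_, ?_⟩
  · rw [hfac, Q.ord_mul (zpow_ne_zero _ hπ0) (div_ne_zero ha0 hb0), hπk, hord, add_zero]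
  · rw [hfac, mul_comm (algebraMap K F _), ← mul_sub, ← hval]
    exact OrdGE.mul (Or.inr hπk.ge) (ordGE_sub_valueAt (Or.inr hord.ge))

/-- Regularity at the places over `c`. -/
def RegAt (u : L) (c : K) (f : F) : Prop := ∀ Q ∈ zerosAt (F := F) u c, OrdGE Q 0 f

theorem RegAt.exists_value (hu : IsGen K u) {q : L} (hq : RegAt u c (algebraMap L F q)) :
    ∃ a : K, ∀ Q ∈ zerosAt (F := F) u c,
      valueAt Q (algebraMap L F q) = a ∧
        OrdGE Q (eAt u c Q) (algebraMap L F q - algebraMap K F a) := by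
  suffices ∃ a : K, ∀ Q ∈ zerosAt (F := F) u c,
      OrdGE Q 1 (algebraMap L F q - algebraMap K F a) by
    obtain ⟨a, ha⟩ := this
    refine ⟨a, fun Q hQ => ⟨valueAt_eq_of_ordGE (ha Q hQ), ?_⟩⟩
    have heq : algebraMap L F q - algebraMap K F a = algebraMap L F (q - algebraMap K L a) := by
      rw [map_sub, ← IsScalarTower.algebraMap_apply]
    rw [heq]
    by_cases h0 : q - algebraMap K L a = 0
    · exact Or.inl (by rw [h0, map_zero])
    obtain ⟨m, b, -, hm⟩ := exists_order (F := F) hu c h0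
    refine Or.inr ?_
    obtain ⟨hmQ, -⟩ := hm Q hQ
    have h1 := (ha Q hQ).le_ord (by
      rw [heq, map_ne_zero_iff _ (algebraMap L F).injective]; exact h0)
    rw [heq] at h1
    have he := eAt_pos hQ
    have : 0 < m := by nlinarith
    nlinarith
  by_cases h0 : q = 0
  · exact ⟨0, fun Q _ => Or.inl (by simp [h0])⟩
  obtain ⟨m, b, -, hm⟩ := exists_order (F := F) hu c h0
  by_cases hm0 : m = 0
  · refine ⟨b, fun Q hQ => ?_⟩
    simpa [hm0] using (hm Q hQ).2
  · refine ⟨0, fun Q hQ => Or.inr ?_⟩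
    obtain ⟨hmQ, -⟩ := hm Q hQ
    have h1 := (hq Q hQ).le_ord ((map_ne_zero_iff _ (algebraMap L F).injective).mpr h0)
    have he := eAt_pos hQ
    have : 0 ≤ m := by nlinarith
    rw [map_zero, sub_zero]
    have : 0 < m := lt_of_le_of_ne this (Ne.symm hm0)
    nlinarith

variable (F u c) in
/-- Index type of the local integral basis. -/
abbrev Idx : Type _ := Σ Q : ↥(zerosAt (F := F) u c), Fin (eAt u c (Q : Place K F))

open Classical in
omit [Algebra K L] [IsScalarTower K L F] in
theorem exists_xBasis (l : Idx F u c) : ∃ f : F, f ≠ 0 ∧ ∀ w ∈ zerosAt (F := F) u c,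
    w.ord f = if w = (l.1 : Place K F) then ((l.2 : ℕ) : ℤ) else (eAt u c w : ℤ) :=
  exists_forall_ord_eq (zerosAt u c) _

/-- The local integral basis over `c`. -/
def xBasis (l : Idx F u c) : F := (exists_xBasis l).choose

omit [Algebra K L] [IsScalarTower K L F] in
theorem xBasis_ne_zero (l : Idx F u c) : xBasis l ≠ 0 := (exists_xBasis l).choose_spec.1

omit [Algebra K L] [IsScalarTower K L F] in
theorem ord_xBasis_self (l : Idx F u c) : (l.1 : Place K F).ord (xBasis l) = (l.2 : ℕ) := by
  rw [xBasis, (exists_xBasis l).choose_spec.2 _ l.1.2, if_pos rfl]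

omit [Algebra K L] [IsScalarTower K L F] in
theorem ord_xBasis_ne (l : Idx F u c) {Q : Place K F} (hQ : Q ∈ zerosAt u c)
    (h : Q ≠ l.1) : Q.ord (xBasis l) = eAt u c Q := by
  rw [xBasis, (exists_xBasis l).choose_spec.2 Q hQ, if_neg h]

omit [Algebra K L] [IsScalarTower K L F] in
theorem regAt_xBasis (l : Idx F u c) : RegAt u c (xBasis l) := by
  intro Q hQ
  refine Or.inr ?_
  by_cases h : Q = l.1
  · subst h; rw [ord_xBasis_self]; omega
  · rw [ord_xBasis_ne l hQ h]; omega

theorem card_idx (hu : IsGen K u) : Fintype.card (Idx F u c) = Module.finrank L F := by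
  rw [Fintype.card_sigma, ← sum_eAt (F := F) hu c]
  simp only [Fintype.card_fin]
  exact Finset.sum_coe_sort _ (fun Q => eAt u c Q)

/-- If a combination with regular coefficients vanishes to order `m` at `Q`, the values of the
coefficients of index `(Q, i)`, `i < m`, vanish. -/
theorem valueAt_coeff_eq_zero (hu : IsGen K u) (q : Idx F u c → L)
    (hq : ∀ l, RegAt u c (algebraMap L F (q l))) (l₀ : Idx F u c) {m : ℤ}
    (hm : ((l₀.2 : ℕ) : ℤ) < m)
    (h : OrdGE (l₀.1 : Place K F) m (∑ l, algebraMap L F (q l) * xBasis l)) :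
    valueAt (l₀.1 : Place K F) (algebraMap L F (q l₀)) = 0 := by
  classical
  obtain ⟨Q, i⟩ := l₀
  induction i using WellFoundedLT.induction with
  | ind i ih =>
  set l₀ : Idx F u c := ⟨Q, i⟩
  choose a ha using fun l => (hq l).exists_value hu
  have hval : ∀ l, valueAt (Q : Place K F) (algebraMap L F (q l)) = a l :=
    fun l => (ha l _ Q.2).1
  have hterm : ∀ l : Idx F u c, l ≠ l₀ →
      OrdGE (Q : Place K F) (((i : ℕ) : ℤ) + 1) (algebraMap L F (q l) * xBasis l) := by
    intro l hl
    by_cases hQl : (l.1 : Place K F) = Q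
    · obtain ⟨Q', j⟩ := l
      obtain rfl : Q' = Q := Subtype.ext hQl
      rcases lt_trichotomy j i with hji | rfl | hij
      · have h0 := ih j hji (lt_trans (by exact_mod_cast hji) hm) h
        have h1 := ordGE_sub_valueAt (hq ⟨Q', j⟩ _ Q'.2)
        have h2 := (ha ⟨Q', j⟩ _ Q'.2).2
        rw [← hval, show valueAt (Q' : Place K F) (algebraMap L F (q ⟨Q', j⟩)) = 0 from h0,
          map_zero, sub_zero] at h2
        have h3 : OrdGE (Q' : Place K F) 0 (xBasis (⟨Q', j⟩ : Idx F u c)) :=
          regAt_xBasis _ _ Q'.2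
        exact (h2.mul h3).mono (by have := i.2; omega)
      · exact absurd rfl hl
      · exact ((hq _ _ Q'.2).mul (Or.inr (ord_xBasis_self (⟨Q', j⟩ : Idx F u c)).ge)).mono
          (by show _ ≤ (0:ℤ) + (((j : ℕ)) : ℤ); omega)
    · exact ((hq l _ Q.2).mul (Or.inr (ord_xBasis_ne l Q.2 (Ne.symm hQl)).ge)).mono
        (by have := i.2; omega)
  have hmain : OrdGE (Q : Place K F) (((i : ℕ) : ℤ) + 1)
      (algebraMap L F (q l₀) * xBasis l₀) := by
    rw [Finset.sum_eq_add_sum_sdiff_singleton_of_mem (Finset.mem_univ l₀)] at h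
    have := (h.mono (show ((i : ℕ) : ℤ) + 1 ≤ m by exact hm)).sub
      (OrdGE.sum (Finset.univ \ {l₀}) fun l hl => hterm l (by simpa using hl))
    simpa using this
  by_contra hne
  have hmem : algebraMap L F (q l₀) ∈ (Q : Place K F).toValuationSubring :=
    ordGE_zero_iff_mem.mp (hq l₀ _ Q.2)
  have h0 : algebraMap L F (q l₀) ≠ 0 := fun h0 =>
    hne ((valueAt_eq_zero_iff _ hmem).mpr (Or.inl h0))
  have hord : (Q : Place K F).ord (algebraMap L F (q l₀)) = 0 := by
    refine le_antisymm ?_ (ord_nonneg_of_mem' _ hmem)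
    by_contra hlt
    exact hne ((valueAt_eq_zero_iff _ hmem).mpr (Or.inr (by omega)))
  have := hmain.le_ord (mul_ne_zero h0 (xBasis_ne_zero l₀))
  rw [Place.ord_mul _ h0 (xBasis_ne_zero l₀), hord,
    show (Q : Place K F).ord (xBasis l₀) = _ from ord_xBasis_self l₀] at this
  simp only [l₀] at this
  omega

/-- The key property of the local basis: a nontrivial combination has order `m·e + i` at one of
the places, where `m` is the least order of a coefficient. -/
theorem exists_min_order (hu : IsGen K u) (q : Idx F u c → L) (hq : ∃ l, q l ≠ 0) :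
    ∃ m : ℤ, (∀ l, ∀ Q ∈ zerosAt (F := F) u c, OrdGE Q (m * eAt u c Q) (algebraMap L F (q l))) ∧
      ∃ l₀ : Idx F u c, ¬ OrdGE (l₀.1 : Place K F)
        (m * eAt u c (l₀.1 : Place K F) + (l₀.2 : ℕ) + 1)
        (∑ l, algebraMap L F (q l) * xBasis l) := by
  classical
  choose! m a ha hm using fun l (h : q l ≠ 0) => exists_order (F := F) hu c h
  obtain ⟨j, hj, hjmin⟩ := (Finset.univ.filter fun l => q l ≠ 0).exists_min_image m
    (by obtain ⟨l, hl⟩ := hq; exact ⟨l, by simp [hl]⟩)
  rw [Finset.mem_filter] at hj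
  have hall : ∀ l, ∀ Q ∈ zerosAt (F := F) u c,
      OrdGE Q (m j * eAt u c Q) (algebraMap L F (q l)) := by
    intro l Q hQ
    by_cases hl : q l = 0
    · exact Or.inl (by simp [hl])
    · refine Or.inr ?_
      rw [(hm l hl Q hQ).1]
      exact mul_le_mul_of_nonneg_right (hjmin l (by simp [hl])) (by omega)
  refine ⟨m j, hall, j, fun hcon => ?_⟩
  set π := u - algebraMap K L c with hπL
  have hπ : algebraMap L F π = algebraMap L F u - algebraMap K F c := by
    rw [hπL, map_sub, ← IsScalarTower.algebraMap_apply]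
  have hπ0 : algebraMap L F π ≠ 0 := hπ ▸ uc_ne_zero hu c
  have hπord : ∀ Q ∈ zerosAt (F := F) u c,
      Q.ord (algebraMap L F (π ^ (-m j))) = -(m j) * eAt u c Q := fun Q hQ => by
    rw [map_zpow₀, Q.ord_zpow, hπ, cast_eAt hQ]
  let q' : Idx F u c → L := fun l => q l * π ^ (-m j)
  have hq' : ∀ l, RegAt u c (algebraMap L F (q' l)) := fun l Q hQ => by
    rw [map_mul]
    exact ((hall l Q hQ).mul (Or.inr (hπord Q hQ).ge)).mono (by ring_nf; rfl)
  have hv : OrdGE (j.1 : Place K F) ((j.2 : ℕ) + 1)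
      (∑ l, algebraMap L F (q' l) * xBasis l) := by
    simp only [q', map_mul, mul_right_comm _ (algebraMap L F (π ^ (-m j))), ← Finset.sum_mul]
    exact (hcon.mul (Or.inr (hπord _ j.1.2).ge)).mono (by ring_nf; rfl)
  have h0 := valueAt_coeff_eq_zero hu q' hq' j (by omega) hv
  have h1 : OrdGE (j.1 : Place K F) 1 (algebraMap L F (q' j) - algebraMap K F (a j)) := by
    have := ((hm j hj.2 _ j.1.2).2).mul
      (Or.inr (hπord (j.1 : Place K F) j.1.2).ge :
        OrdGE (j.1 : Place K F) _ (algebraMap L F (π ^ (-m j))))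
    rw [sub_mul, mul_assoc, ← hπ, ← map_mul, map_zpow₀, ← zpow_add₀ hπ0, add_neg_cancel,
      zpow_zero, mul_one] at this
    exact this.mono (by ring_nf; rfl)
  exact ha j hj.2 ((valueAt_eq_of_ordGE h1).symm.trans h0)

theorem linearIndependent_xBasis (hu : IsGen K u) :
    LinearIndependent L (xBasis : Idx F u c → F) := by
  rw [Fintype.linearIndependent_iff]
  intro g hg
  by_contra hne
  push Not at hne
  obtain ⟨m, -, l₀, hl₀⟩ := exists_min_order hu g hne
  simp only [← Algebra.smul_def] at hl₀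
  exact hl₀ (Or.inl hg)

/-- The local integral basis as a basis of `F/L`. -/
def localBasis [FiniteDimensional L F] (hu : IsGen K u) : Module.Basis (Idx F u c) L F :=
  basisOfLinearIndependentOfCardEqFinrank' xBasis (linearIndependent_xBasis hu) (card_idx hu)

@[simp]
theorem localBasis_apply [FiniteDimensional L F] (hu : IsGen K u) (l : Idx F u c) :
    localBasis hu l = xBasis l := by
  simp [localBasis, basisOfLinearIndependentOfCardEqFinrank']

theorem sum_repr_mul [FiniteDimensional L F] (hu : IsGen K u) (f : F) :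
    ∑ l : Idx F u c, algebraMap L F ((localBasis hu).repr f l) * xBasis l = f := by
  conv_rhs => rw [← (localBasis (c := c) hu).sum_repr f]
  simp [Algebra.smul_def]

theorem regAt_coeff [FiniteDimensional L F] (hu : IsGen K u) {f : F} (hf : RegAt u c f)
    (l : Idx F u c) : RegAt u c (algebraMap L F ((localBasis hu).repr f l)) := by
  set q := fun l => (localBasis (c := c) hu).repr f l with hq
  by_cases h0 : ∀ l, q l = 0
  · exact fun Q _ => Or.inl (by simp [show (localBasis hu).repr f l = 0 from h0 l])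
  · push Not at h0
    obtain ⟨m, hall, l₀, hl₀⟩ := exists_min_order hu q h0
    rw [sum_repr_mul] at hl₀
    intro Q hQ
    refine (hall l Q hQ).mono ?_
    by_contra hneg
    refine hl₀ ((hf _ l₀.1.2).mono ?_)
    have h1 : (((l₀.2 : ℕ) : ℤ)) + 1 ≤ eAt u c (l₀.1 : Place K F) := by
      have := l₀.2.2; omega
    have : m ≤ -1 := by nlinarith
    nlinarith

/-- **Trace modulo a point**: `Tr(w)(c) = ∑ e_Q w(Q)`. -/
theorem regAt_trace_and_valueAt [FiniteDimensional L F] (hu : IsGen K u) {w : F}
    (hw : RegAt u c w) :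
    RegAt u c (algebraMap L F (Algebra.trace L F w)) ∧
      ∀ Q₀ ∈ zerosAt (F := F) u c, valueAt Q₀ (algebraMap L F (Algebra.trace L F w))
        = ∑ Q ∈ zerosAt (F := F) u c, (eAt u c Q : K) * valueAt Q w := by
  classical
  set b := localBasis (F := F) (c := c) hu
  have htr : Algebra.trace L F w = ∑ k, b.repr (w * b k) k := by
    rw [Algebra.trace_eq_matrix_trace b, Matrix.trace]
    simp [Matrix.diag, Algebra.leftMulMatrix_eq_repr_mul]
  have hreg : ∀ k l, RegAt u c (algebraMap L F (b.repr (w * b k) l)) := fun k l =>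
    regAt_coeff hu (fun Q hQ => by
      simpa [b] using (hw Q hQ).mul (regAt_xBasis k Q hQ)) l
  have hdiag : ∀ k : Idx F u c, ∀ Q₀ ∈ zerosAt (F := F) u c,
      valueAt Q₀ (algebraMap L F (b.repr (w * b k) k)) = valueAt (k.1 : Place K F) w := by
    intro k Q₀ hQ₀
    obtain ⟨a, ha⟩ := (hreg k k).exists_value hu
    rw [(ha Q₀ hQ₀).1, ← (ha _ k.1.2).1]
    set d := valueAt (k.1 : Place K F) w
    have key := valueAt_coeff_eq_zero hu
      (fun l => b.repr (w * b k) l - if l = k then algebraMap K L d else 0) (fun l Q hQ => by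
        by_cases hlk : l = k
        · subst hlk
          rw [if_pos rfl, map_sub, ← IsScalarTower.algebraMap_apply]
          exact (hreg l l Q hQ).sub (ordGE_algebraMap d)
        · simpa [hlk] using hreg k l Q hQ)
      k (m := ((k.2 : ℕ) : ℤ) + 1) (by omega) (by
        simp only [map_sub, sub_mul, Finset.sum_sub_distrib, sum_repr_mul, apply_ite (algebraMap L F),
          map_zero, ite_mul, zero_mul, Finset.sum_ite_eq', Finset.mem_univ, if_true, b,
          localBasis_apply, ← IsScalarTower.algebraMap_apply]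
        rw [← sub_mul, add_comm]
        exact (ordGE_sub_valueAt (hw _ k.1.2)).mul (Or.inr (ord_xBasis_self k).ge))
    simp only [if_true, map_sub, ← IsScalarTower.algebraMap_apply] at key
    rwa [valueAt_sub _ (ordGE_zero_iff_mem.mp (hreg k k _ k.1.2))
      ((k.1 : Place K F).algebraMap_mem' d), valueAt_algebraMap, sub_eq_zero] at key
  refine ⟨fun Q hQ => ?_, fun Q₀ hQ₀ => ?_⟩
  · rw [htr, map_sum]
    exact OrdGE.sum _ fun k _ => hreg k k Q hQ
  · have hsum : ∀ (s : Finset (Idx F u c)),
        valueAt Q₀ (∑ k ∈ s, algebraMap L F (b.repr (w * b k) k))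
          = ∑ k ∈ s, valueAt (k.1 : Place K F) w := by
      intro s
      induction s using Finset.induction_on with
      | empty => rw [Finset.sum_empty, Finset.sum_empty, ← map_zero (algebraMap K F),
          valueAt_algebraMap]
      | insert k s hk ih =>
        rw [Finset.sum_insert hk, Finset.sum_insert hk, valueAt_add Q₀
          (ordGE_zero_iff_mem.mp (hreg k k Q₀ hQ₀))
          (ordGE_zero_iff_mem.mp (OrdGE.sum _ fun l _ => hreg l l Q₀ hQ₀)), ih, hdiag k Q₀ hQ₀]
    rw [htr, map_sum, hsum, Fintype.sum_sigma]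
    simp only [Finset.sum_const, Finset.card_univ, Fintype.card_fin, nsmul_eq_mul]
    exact Finset.sum_coe_sort (zerosAt (F := F) u c) (fun Q => (eAt u c Q : K) * valueAt Q w)

end FermatAgent.Curve.Diff
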