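import Fermat.Agent.Curve.Diff.Lattice

/-!
# Ramification and the trace dual lattice

If `y` has poles of order at most `e - 1` then the trace pairing with regular functions is
regular; conversely in the tame case.  Hence the trace dual basis of a lattice basis computes
the Riemann–Roch spaces of `Ram + m·D∞`.
-/

set_option autoImplicit false

noncomputable section

open AlgebraicCurve IntermediateField Polynomial

namespace FermatAgent.Curve.Diff

variable {K F : Type*} [Field K] [Field F] [Algebra K F] [IsAlgClosed K] [IsFunctionField1 K F]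
variable {L : Type*} [Field L] [Algebra K L] [Algebra L F] [IsScalarTower K L F]
variable {u : L} {c : K}

open Classical in
/-- The ramification index of `Q` over `K(u)`. -/
def ramIdx (K : Type*) [Field K] [Algebra K F] [IsAlgClosed K] [IsFunctionField1 K F]
    (u : L) (Q : Place K F) : ℕ :=
  if FinAt u Q then eAt u (valueAt Q (algebraMap L F u)) Q else eAt u⁻¹ (0 : K) Q

omit [Algebra K L] [IsScalarTower K L F] in
theorem ramIdx_of_mem_zerosAt {Q : Place K F} (hQ : Q ∈ zerosAt u c) :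
    ramIdx K u Q = eAt u c Q := by
  rw [ramIdx, if_pos (finAt_of_mem_zerosAt hQ), (mem_and_valueAt_eq hQ).2]

omit [IsScalarTower K L F] in
theorem ramIdx_of_mem_zerosAt_inv {Q : Place K F} (hu : IsGen K u)
    (hQ : Q ∈ zerosAt u⁻¹ (0 : K)) : ramIdx K u Q = eAt u⁻¹ (0 : K) Q := by
  rw [ramIdx, if_neg ((mem_zerosAt_inv_iff hu).mp hQ)]

theorem ramIdx_pos (hu : IsGen K u) (Q : Place K F) : 0 < ramIdx K u Q := by
  by_cases hQ : FinAt u Q
  · rw [ramIdx, if_pos hQ]; exact eAt_pos (hQ.mem_zerosAt hu)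
  · rw [ramIdx, if_neg hQ]; exact eAt_pos ((mem_zerosAt_inv_iff hu).mpr hQ)

/-- All ramification over `K(u)` is tame. -/
def IsTame (K : Type*) [Field K] [Algebra K F] [IsAlgClosed K] [IsFunctionField1 K F]
    (u : L) : Prop :=
  ∀ Q : Place K F, (ramIdx K u Q : K) ≠ 0

theorem isTame_of_charZero [CharZero K] (hu : IsGen K u) : IsTame (F := F) K u :=
  fun Q => by exact_mod_cast (ramIdx_pos hu Q).ne'

/-- Local inclusion into the trace dual. -/
theorem regAt_trace_mul [FiniteDimensional L F] (hu : IsGen K u) {z x : F}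
    (hz : ∀ Q ∈ zerosAt (F := F) u c, OrdGE Q (1 - (eAt u c Q : ℤ)) z) (hx : RegAt u c x) :
    RegAt u c (algebraMap L F (Algebra.trace L F (z * x))) := by
  set π : L := u - algebraMap K L c with hπ
  have hπF : algebraMap L F π = algebraMap L F u - algebraMap K F c := by
    rw [hπ, map_sub, ← IsScalarTower.algebraMap_apply]
  set w := algebraMap L F π * (z * x)
  have hw1 : ∀ Q ∈ zerosAt (F := F) u c, OrdGE Q 1 w := fun Q hQ => by
    have h := OrdGE.mul (v := Q) (f := algebraMap L F π)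
      (Or.inr (hπF ▸ (cast_eAt hQ).le : (eAt u c Q : ℤ) ≤ Q.ord (algebraMap L F π)))
      ((hz Q hQ).mul (hx Q hQ))
    exact h.mono (by omega)
  have hw : RegAt u c w := fun Q hQ => (hw1 Q hQ).mono zero_le_one
  obtain ⟨hreg, hval⟩ := regAt_trace_and_valueAt hu hw
  have htr : Algebra.trace L F w = π * Algebra.trace L F (z * x) := by
    simp only [w, ← Algebra.smul_def, map_smul, smul_eq_mul]
  obtain ⟨a, ha⟩ := hreg.exists_value hu
  intro Q hQ
  obtain ⟨haQ, hge⟩ := ha Q hQ
  have ha0 : a = 0 := by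
    rw [← haQ, hval Q hQ]
    refine Finset.sum_eq_zero fun P hP => ?_
    rw [valueAt_eq_of_ordGE (a := 0) (by rw [map_zero, sub_zero]; exact hw1 P hP), mul_zero]
  rw [ha0, map_zero, sub_zero, htr, map_mul] at hge
  by_cases h0 : algebraMap L F (Algebra.trace L F (z * x)) = 0
  · exact Or.inl h0
  have hne : algebraMap L F π ≠ 0 := hπF ▸ uc_ne_zero hu c
  have h1 := hge.le_ord (mul_ne_zero hne h0)
  rw [Q.ord_mul hne h0, hπF, ← cast_eAt hQ] at h1
  exact Or.inr (by omega)

/-- Conversely, in the tame case, the trace dual has no larger poles. -/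
theorem ordGE_of_regAt_trace [FiniteDimensional L F] (hu : IsGen K u) {z : F}
    (hz : ∀ x : F, RegAt u c x → RegAt u c (algebraMap L F (Algebra.trace L F (z * x))))
    {P : Place K F} (hP : P ∈ zerosAt u c) (he : (eAt u c P : K) ≠ 0) :
    OrdGE P (1 - (eAt u c P : ℤ)) z := by
  classical
  by_contra hcon
  simp only [OrdGE, not_or, not_le] at hcon
  obtain ⟨hz0, hlt⟩ := hcon
  set π : L := u - algebraMap K L c with hπ
  have hπF : algebraMap L F π = algebraMap L F u - algebraMap K F c := by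
    rw [hπ, map_sub, ← IsScalarTower.algebraMap_apply]
  have hπ0 : algebraMap L F π ≠ 0 := hπF ▸ uc_ne_zero hu c
  set d : Place K F → ℤ := fun Q => Q.ord (algebraMap L F π * z)
  obtain ⟨x, hx0, hx⟩ := exists_forall_ord_eq (zerosAt (F := F) u c)
    (fun Q => if Q = P then -d Q else max 0 (1 - d Q))
  have hdP : d P ≤ 0 := by
    have h1 : d P = P.ord (algebraMap L F π * z) := rfl
    rw [P.ord_mul hπ0 hz0, hπF, ← cast_eAt hP] at h1
    omega
  have hxreg : RegAt u c x := fun Q hQ => by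
    refine Or.inr ?_
    rw [hx Q hQ]
    split_ifs with h
    · subst h; omega
    · omega
  set w := algebraMap L F π * (z * x)
  have hw0 : w ≠ 0 := mul_ne_zero hπ0 (mul_ne_zero hz0 hx0)
  have hord : ∀ Q, Q.ord w = d Q + Q.ord x := fun Q => by
    simp only [w, d, ← mul_assoc, Q.ord_mul (mul_ne_zero hπ0 hz0) hx0]
  have hwP : P.ord w = 0 := by rw [hord, hx P hP, if_pos rfl]; omega
  have hwQ : ∀ Q ∈ zerosAt (F := F) u c, Q ≠ P → 1 ≤ Q.ord w := fun Q hQ h => by
    rw [hord, hx Q hQ, if_neg h]; omega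
  have hw : RegAt u c w := fun Q hQ => Or.inr (by
    by_cases h : Q = P
    · subst h; omega
    · have := hwQ Q hQ h; omega)
  obtain ⟨-, hval⟩ := regAt_trace_and_valueAt hu hw
  have h1 := hval P hP
  rw [Finset.sum_eq_single P (fun Q hQ h => by
    rw [valueAt_eq_of_ordGE (a := 0) (by rw [map_zero, sub_zero]; exact Or.inr (hwQ Q hQ h)),
      mul_zero]) (fun h => absurd hP h)] at h1
  have htr : algebraMap L F (Algebra.trace L F w)
      = algebraMap L F π * algebraMap L F (Algebra.trace L F (z * x)) := by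
    simp only [w, ← Algebra.smul_def, map_smul, smul_eq_mul, map_mul]
  have hvan : valueAt P (algebraMap L F (Algebra.trace L F w)) = 0 := by
    refine valueAt_eq_of_ordGE ?_
    rw [map_zero, sub_zero, htr]
    have h2 := OrdGE.mul (v := P) (f := algebraMap L F π)
      (Or.inr (hπF ▸ (cast_eAt hP).le : (eAt u c P : ℤ) ≤ P.ord (algebraMap L F π)))
      (hz x hxreg P hP)
    exact h2.mono (by have := eAt_pos hP; omega)
  rw [hvan] at h1
  have hmem : w ∈ P.toValuationSubring := (mem_iff_ord_nonneg P).mpr (Or.inr hwP.ge)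
  rcases mul_eq_zero.mp h1.symm with h | h
  · exact he h
  · rcases (valueAt_eq_zero_iff P hmem).mp h with h | h
    · exact hw0 h
    · omega

/-- Poles at finite places of order at most `e - 1`. -/
def DualFin (K : Type*) [Field K] [Algebra K F] [IsAlgClosed K] [IsFunctionField1 K F]
    (u : L) (f : F) : Prop :=
  ∀ Q : Place K F, FinAt u Q → OrdGE Q (1 - (ramIdx K u Q : ℤ)) f

/-- Poles at infinite places of order at most `m e + e - 1`. -/
def DualInf (K : Type*) [Field K] [Algebra K F] [IsAlgClosed K] [IsFunctionField1 K F]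
    (u : L) (m : ℤ) (f : F) : Prop :=
  ∀ Q ∈ zerosAt (F := F) u⁻¹ (0 : K),
    OrdGE Q (1 - (eAt u⁻¹ (0 : K) Q : ℤ) - m * eAt u⁻¹ (0 : K) Q) f

namespace IsLatticeBasis

variable {n : ℕ} {b : Module.Basis (Fin n) L F} {r : Fin n → ℕ}

theorem exists_trace_eq_aeval [FiniteDimensional L F] (h : IsLatticeBasis K u b r)
    (hu : IsGen K u) {f : F} (hf : DualFin K u f) (i : Fin n) :
    ∃ p : K[X], Algebra.trace L F (f * b i) = aeval u p :=
  exists_eq_aeval_of_finReg (F := F) hu <| finReg_of_forall_regAt hu fun _ =>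
    regAt_trace_mul hu (fun Q hQ => ramIdx_of_mem_zerosAt hQ ▸ hf Q (finAt_of_mem_zerosAt hQ))
      ((h.finReg i).regAt _)

theorem natDegree_trace_le [FiniteDimensional L F] (h : IsLatticeBasis K u b r) (hu : IsGen K u)
    {f : F} {m : ℤ} (hf : DualInf K u m f) (i : Fin n) {p : K[X]}
    (hp : Algebra.trace L F (f * b i) = aeval u p) :
    p = 0 ∨ (p.natDegree : ℤ) ≤ m + r i := by
  refine (ordGE_inf_aeval_iff (F := F) hu p _).mp fun Q hQ => ?_
  set U := algebraMap L F u
  have hU : U ≠ 0 := (_root_.map_ne_zero _).mpr hu.ne_zero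
  have hpow : ∀ (k : ℤ), ∀ P ∈ zerosAt (F := F) u⁻¹ (0 : K),
      P.ord (U ^ k) = -(k * eAt u⁻¹ (0 : K) P) := fun k P hP => by
    rw [P.ord_zpow, cast_eAt_inv hu hP]; ring
  have hz : ∀ P ∈ zerosAt (F := F) u⁻¹ (0 : K),
      OrdGE P (1 - (eAt u⁻¹ (0 : K) P : ℤ)) (U ^ (-m) * f) := fun P hP =>
    (OrdGE.mul (Or.inr (hpow (-m) P hP).ge) (hf P hP)).mono (by ring_nf; rfl)
  have hx : RegAt u⁻¹ (0 : K) (U ^ (-(r i : ℤ)) * b i) := fun P hP =>
    (OrdGE.mul (Or.inr (hpow _ P hP).ge) (h.infGE i P hP)).mono (by ring_nf; rfl)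
  have h1 := regAt_trace_mul hu.inv hz hx Q hQ
  rw [show U ^ (-m) * f * (U ^ (-(r i : ℤ)) * b i) = U ^ (-(m + r i)) * (f * b i) by
    rw [neg_add, zpow_add₀ hU]; ring, ← map_zpow₀, ← Algebra.smul_def, map_smul, smul_eq_mul,
    hp, map_mul, map_zpow₀] at h1
  by_cases hp0 : algebraMap L F (aeval u p) = 0
  · exact Or.inl hp0
  refine Or.inr ?_
  have h2 := h1.le_ord (mul_ne_zero (zpow_ne_zero _ hU) hp0)
  rw [Q.ord_mul (zpow_ne_zero _ hU) hp0, hpow _ Q hQ] at h2
  linarith

theorem dualFin_of_trace [FiniteDimensional L F] (h : IsLatticeBasis K u b r) (hu : IsGen K u)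
    (ht : IsTame (F := F) K u) {f : F}
    (hf : ∀ i, ∃ p : K[X], Algebra.trace L F (f * b i) = aeval u p) : DualFin K u f := by
  intro P hP
  have hPz := hP.mem_zerosAt hu
  rw [ramIdx_of_mem_zerosAt hPz]
  refine ordGE_of_regAt_trace hu (fun x hx => ?_) hPz (ramIdx_of_mem_zerosAt hPz ▸ ht P)
  obtain ⟨s, hs, hsreg, hsc⟩ := exists_multiplier hu x
  choose p hp using hf
  choose q hq using (h.finReg_iff _).mp hsreg
  have hsum : aeval u s * Algebra.trace L F (f * x) = aeval u (∑ i, q i * p i) := by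
    rw [← smul_eq_mul, ← map_smul, Algebra.smul_def, mul_left_comm,
      ← b.sum_repr (algebraMap L F (aeval u s) * x)]
    simp [Finset.mul_sum, hq, hp, smul_eq_mul]
  intro Q hQ
  by_cases h0 : algebraMap L F (Algebra.trace L F (f * x)) = 0
  · exact Or.inl h0
  obtain ⟨hord, -⟩ := ord_aeval_eq_zero (F := F) hQ (hsc _ hx)
  have hne : algebraMap L F (aeval u s) ≠ 0 :=
    (_root_.map_ne_zero _).mpr fun h' => hu.transcendental ⟨_, hs, h'⟩
  have h2 := finReg_aeval (K := K) (F := F) (u := u) (∑ i, q i * p i) Q (finAt_of_mem_zerosAt hQ)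
  rw [← hsum, map_mul] at h2
  have h3 := h2.le_ord (mul_ne_zero hne h0)
  rw [Q.ord_mul hne h0, hord] at h3
  exact Or.inr (by omega)

theorem dualInf_of_trace [FiniteDimensional L F] (h : IsLatticeBasis K u b r) (hu : IsGen K u)
    (ht : IsTame (F := F) K u) {f : F} {m : ℤ}
    (hf : ∀ i, ∃ p : K[X], Algebra.trace L F (f * b i) = aeval u p ∧
      (p = 0 ∨ (p.natDegree : ℤ) ≤ m + r i)) : DualInf K u m f := by
  intro P hP
  set U := algebraMap L F u
  have hU : U ≠ 0 := (_root_.map_ne_zero _).mpr hu.ne_zero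
  have hpow : ∀ (k : ℤ), ∀ Q ∈ zerosAt (F := F) u⁻¹ (0 : K),
      Q.ord (U ^ k) = -(k * eAt u⁻¹ (0 : K) Q) := fun k Q hQ => by
    rw [Q.ord_zpow, cast_eAt_inv hu hQ]; ring
  suffices OrdGE P (1 - (eAt u⁻¹ (0 : K) P : ℤ)) (U ^ (-m) * f) by
    have h1 := (OrdGE.mul (Or.inr (hpow m P hP).ge) this)
    rw [← mul_assoc, ← zpow_add₀ hU, add_neg_cancel, zpow_zero, one_mul] at h1
    exact h1.mono (by linarith)
  refine ordGE_of_regAt_trace hu.inv (fun x hx => ?_) hP
    (ramIdx_of_mem_zerosAt_inv hu hP ▸ ht P)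
  obtain ⟨s, hs, hsreg, -⟩ := exists_multiplier hu x
  have hsne : algebraMap L F (aeval u s) ≠ 0 :=
    (_root_.map_ne_zero _).mpr fun h' => hu.transcendental ⟨_, hs, h'⟩
  have hsinf : InfGE K u (s.natDegree : ℤ) (algebraMap L F (aeval u s) * x) := fun Q hQ =>
    (OrdGE.mul (Or.inr (ord_aeval_inf hu hQ hs).ge) (hx Q hQ)).mono (by omega)
  choose q hq hqd using (h.mem_iff _ _).mp ⟨hsreg, hsinf⟩
  choose p hp hpd using hf
  set T := ∑ i, q i * p i
  have hT : T = 0 ∨ (T.natDegree : ℤ) ≤ s.natDegree + m := by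
    by_cases hT0 : T = 0
    · exact Or.inl hT0
    refine Or.inr ?_
    obtain ⟨i, -, hi⟩ : ∃ i ∈ Finset.univ, T.natDegree ≤ (q i * p i).natDegree ∧ q i * p i ≠ 0 := by
      obtain ⟨i, -, hi⟩ := Finset.exists_ne_zero_of_sum_ne_zero
        (show ∑ i, (q i * p i).coeff T.natDegree ≠ 0 by
          rw [← finsetSum_coeff]; exact mt leadingCoeff_eq_zero.mp hT0)
      exact ⟨i, Finset.mem_univ i, le_natDegree_of_ne_zero hi, fun h0 => hi (by simp [h0])⟩
    obtain ⟨hle, hne⟩ := hi
    obtain ⟨hq0, hp0⟩ := mul_ne_zero_iff.mp hne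
    have h1 := (hqd i).resolve_left hq0
    have h2 := (hpd i).resolve_left hp0
    have h3 : (q i * p i).natDegree = (q i).natDegree + (p i).natDegree := natDegree_mul hq0 hp0
    omega
  have hsum : aeval u s * Algebra.trace L F (f * x) = aeval u T := by
    rw [← smul_eq_mul, ← map_smul, Algebra.smul_def, mul_left_comm,
      ← b.sum_repr (algebraMap L F (aeval u s) * x)]
    simp [T, Finset.mul_sum, hq, hp, smul_eq_mul]
  intro Q hQ
  rw [mul_assoc, ← map_zpow₀, ← Algebra.smul_def, map_smul, smul_eq_mul, map_mul, map_zpow₀]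
  by_cases h0 : algebraMap L F (Algebra.trace L F (f * x)) = 0
  · exact Or.inl (by rw [h0, mul_zero])
  refine Or.inr ?_
  have h4 := (ordGE_inf_aeval_iff (F := F) hu T _).mpr hT Q hQ
  rw [← hsum, map_mul] at h4
  have h5 := h4.le_ord (mul_ne_zero hsne h0)
  rw [Q.ord_mul hsne h0, ord_aeval_inf hu hQ hs] at h5
  rw [Q.ord_mul (zpow_ne_zero _ hU) h0, hpow _ Q hQ]
  linarith

/-- The trace dual basis computes the poles bounded by `Ram + m·D∞`. -/
theorem dual_mem_iff [FiniteDimensional L F] [Algebra.IsSeparable L F]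
    (h : IsLatticeBasis K u b r) (hu : IsGen K u) (ht : IsTame (F := F) K u) (f : F) (m : ℤ) :
    (DualFin K u f ∧ DualInf K u m f) ↔
      ∀ i, ∃ p : K[X], b.traceDual.repr f i = aeval u p ∧
        (p = 0 ∨ (p.natDegree : ℤ) ≤ m + r i) := by
  simp only [Module.Basis.traceDual_repr_apply, Algebra.traceForm_apply]
  refine ⟨fun ⟨hf, hfm⟩ i => ?_, fun hp => ⟨h.dualFin_of_trace hu ht fun i => (hp i).imp
    fun _ hp => hp.1, h.dualInf_of_trace hu ht hp⟩⟩
  obtain ⟨p, hp⟩ := h.exists_trace_eq_aeval hu hf i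
  exact ⟨p, hp, h.natDegree_trace_le hu hfm i hp⟩

end IsLatticeBasis

/-- Only finitely many places ramify over `K(u)`. -/
theorem finite_ramified [FiniteDimensional L F] [Algebra.IsSeparable L F] (hu : IsGen K u) :
    {Q : Place K F | ramIdx K u Q - 1 ≠ 0}.Finite := by
  classical
  obtain ⟨b, r, h⟩ := exists_latticeBasis (F := F) hu
  refine Set.Finite.subset (((zerosAt (F := F) u⁻¹ (0 : K)).finite_toSet).union
    (Set.finite_iUnion fun i => finite_setOf_notMem (K := K) (b.traceDual i))) fun P hP => ?_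
  by_cases hfin : FinAt u P
  swap
  · exact Or.inl (Finset.mem_coe.mpr ((mem_zerosAt_inv_iff hu).mpr hfin))
  refine Or.inr ?_
  rw [Set.mem_iUnion]
  by_contra hcon
  simp only [not_exists, Set.mem_ofPred_eq, not_not] at hcon
  have hPz := hfin.mem_zerosAt hu
  set c := valueAt P (algebraMap L F u)
  have he : 2 ≤ eAt u c P := by
    have := ramIdx_of_mem_zerosAt hPz
    simp only [Set.mem_ofPred_eq] at hP
    omega
  obtain ⟨f, hf0, hf⟩ := exists_forall_ord_eq (zerosAt (F := F) u c)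
    (fun Q => if Q = P then (-1 : ℤ) else 0)
  obtain ⟨s, hs, hsreg, hsc⟩ := exists_multiplier hu
    (f * (algebraMap L F u - algebraMap K F c))
  have hreg : RegAt u c (f * (algebraMap L F u - algebraMap K F c)) := fun Q hQ => by
    refine Or.inr ?_
    rw [Q.ord_mul hf0 (uc_ne_zero hu c), hf Q hQ, ← cast_eAt hQ]
    have := eAt_pos hQ
    split_ifs <;> omega
  have hsc' := hsc c hreg
  have hsne : algebraMap L F (aeval u s) ≠ 0 :=
    (_root_.map_ne_zero _).mpr fun h' => hu.transcendental ⟨_, hs, h'⟩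
  set g := algebraMap L F (aeval u s) * f
  have hg : DualFin K u g := by
    intro Q hQ
    by_cases hQc : Q ∈ zerosAt u c
    · refine Or.inr ?_
      rw [ramIdx_of_mem_zerosAt hQc, Q.ord_mul hsne hf0, (ord_aeval_eq_zero hQc hsc').1, hf Q hQc]
      have := eAt_pos hQc
      split_ifs with hQP
      · subst hQP; omega
      · omega
    · have hne : valueAt Q (algebraMap L F u) - c ≠ 0 := fun h0 => hQc (by
        have := hQ.mem_zerosAt hu; rwa [sub_eq_zero.mp h0] at this)
      have hmem := ordGE_zero_iff_mem.mp hQ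
      have hord : Q.ord (algebraMap L F u - algebraMap K F c) = 0 := by
        have := (ord_aeval_eq_zero (F := F) (hQ.mem_zerosAt hu) (p := X - C c)
          (by simpa using hne)).1
        simpa [← IsScalarTower.algebraMap_apply] using this
      have h1 := (hsreg Q hQ).le_ord (mul_ne_zero hsne (mul_ne_zero hf0 (uc_ne_zero hu c)))
      rw [Q.ord_mul hsne (mul_ne_zero hf0 (uc_ne_zero hu c)), Q.ord_mul hf0 (uc_ne_zero hu c),
        hord, add_zero] at h1
      have h2 : OrdGE Q 0 g := Or.inr (by rw [Q.ord_mul hsne hf0]; omega)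
      exact h2.mono (by have := ramIdx_pos (F := F) hu Q; omega)
  have hgmem : OrdGE P 0 g := by
    rw [← b.traceDual.sum_repr g]
    refine OrdGE.sum _ fun i _ => ?_
    rw [Algebra.smul_def]
    obtain ⟨p, hp⟩ := h.exists_trace_eq_aeval hu hg i
    rw [Module.Basis.traceDual_repr_apply, Algebra.traceForm_apply, hp]
    simpa using (finReg_aeval (F := F) p P hfin).mul (ordGE_zero_iff_mem.mpr (hcon i))
  have h1 := hgmem.le_ord (mul_ne_zero hsne hf0)
  rw [P.ord_mul hsne hf0, (ord_aeval_eq_zero hPz hsc').1, hf P hPz, if_pos rfl] at h1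
  omega

end FermatAgent.Curve.Diff
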