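import Fermat.Agent.Curve.Diff.Dual
import Fermat.Agent.Curve.RR.Main
import Mathlib.RingTheory.Polynomial.Basic

/-!
# Riemann–Hurwitz for `genusFF` with tame ramification

For `L = K(u) ⊂ F` finite separable of degree `n`, all ramification tame:
`deg Ram = 2g - 2 + 2n`, so `lineCanonical = Ram - 2 D∞` has degree `2g - 2`.
-/

set_option autoImplicit false

noncomputable section

open AlgebraicCurve IntermediateField Polynomial FermatAgent.Curve.RR

namespace FermatAgent.Curve.Diff

variable {K F : Type*} [Field K] [Field F] [Algebra K F] [IsAlgClosed K] [IsFunctionField1 K F]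
variable {L : Type*} [Field L] [Algebra K L] [Algebra L F] [IsScalarTower K L F]
variable {u : L}

open Classical in
/-- The polar divisor of `u` in `F`. -/
def poleDivisor (K : Type*) [Field K] [Algebra K F] [IsAlgClosed K] [IsFunctionField1 K F]
    (u : L) : Divisor K F :=
  Finsupp.onFinset (zerosAt (F := F) u⁻¹ (0 : K))
    (fun Q => if Q ∈ zerosAt u⁻¹ (0 : K) then (eAt u⁻¹ (0 : K) Q : ℤ) else 0)
    (fun Q hQ => by by_contra h; simp [h] at hQ)

omit [Algebra K L] [IsScalarTower K L F] in
theorem poleDivisor_of_mem {Q : Place K F} (hQ : Q ∈ zerosAt u⁻¹ (0 : K)) :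
    poleDivisor K u Q = eAt u⁻¹ (0 : K) Q := by
  simp [poleDivisor, hQ]

omit [IsScalarTower K L F] in
theorem poleDivisor_of_finAt {Q : Place K F} (hu : IsGen K u) (hQ : FinAt u Q) :
    poleDivisor K u Q = 0 := by
  simp [poleDivisor, show Q ∉ zerosAt u⁻¹ (0 : K) from fun h => (mem_zerosAt_inv_iff hu).mp h hQ]

theorem degree_poleDivisor (hu : IsGen K u) :
    Divisor.degree (poleDivisor (F := F) K u) = Module.finrank L F := by
  rw [degree_eq_sum, Finsupp.sum, ← sum_eAt (F := F) hu.inv (0 : K), Nat.cast_sum]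
  refine (Finset.sum_subset (fun Q hQ => ?_) fun Q hQ hQ' => ?_).trans
    (Finset.sum_congr rfl fun Q hQ => poleDivisor_of_mem hQ)
  · by_contra h
    simp [poleDivisor, h] at hQ
  · simpa using hQ'

/-- The ramification divisor `∑ (e - 1) Q` of `F/K(u)`. -/
def ramDivisor [FiniteDimensional L F] [Algebra.IsSeparable L F] (hu : IsGen K u) :
    Divisor K F :=
  Finsupp.ofSupportFinite (fun Q => ((ramIdx K u Q - 1 : ℕ) : ℤ))
    ((finite_ramified (F := F) hu).subset fun _ hQ h0 => hQ (by simp [h0]))

theorem ramDivisor_apply [FiniteDimensional L F] [Algebra.IsSeparable L F] (hu : IsGen K u)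
    (Q : Place K F) : ramDivisor hu Q = (ramIdx K u Q : ℤ) - 1 := by
  have := ramIdx_pos (F := F) hu Q
  show ((ramIdx K u Q - 1 : ℕ) : ℤ) = _
  omega

omit [IsScalarTower K L F] in
theorem mem_riemannRochSpace_smul_poleDivisor_iff (hu : IsGen K u) (f : F) (m : ℤ) :
    f ∈ riemannRochSpace (m • poleDivisor (F := F) K u) ↔ FinReg K u f ∧ InfGE K u m f := by
  rw [mem_riemannRochSpace_iff]
  constructor
  · refine fun h => ⟨fun Q hQ => ?_, fun Q hQ => ?_⟩
    · simpa [OrdGE, poleDivisor_of_finAt hu hQ] using h Q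
    · simpa [OrdGE, poleDivisor_of_mem hQ] using h Q
  · rintro ⟨h1, h2⟩ Q
    by_cases hQ : FinAt u Q
    · simpa [OrdGE, poleDivisor_of_finAt hu hQ] using h1 Q hQ
    · have hQ' := (mem_zerosAt_inv_iff hu).mpr hQ
      simpa [OrdGE, poleDivisor_of_mem hQ'] using h2 Q hQ'

theorem mem_riemannRochSpace_ram_iff [FiniteDimensional L F] [Algebra.IsSeparable L F]
    (hu : IsGen K u) (f : F) (m : ℤ) :
    f ∈ riemannRochSpace (ramDivisor hu + m • poleDivisor (F := F) K u) ↔
      DualFin K u f ∧ DualInf K u m f := by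
  rw [mem_riemannRochSpace_iff]
  constructor
  · refine fun h => ⟨fun Q hQ => ?_, fun Q hQ => ?_⟩
    · simpa [OrdGE, ramDivisor_apply, poleDivisor_of_finAt hu hQ] using h Q
    · refine (h Q).imp_right fun h' => ?_
      simp only [Finsupp.add_apply, Finsupp.smul_apply, smul_eq_mul, ramDivisor_apply,
        poleDivisor_of_mem hQ, ramIdx_of_mem_zerosAt_inv hu hQ] at h'
      linarith
  · rintro ⟨h1, h2⟩ Q
    by_cases hQ : FinAt u Q
    · simpa [OrdGE, ramDivisor_apply, poleDivisor_of_finAt hu hQ] using h1 Q hQ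
    · have hQ' := (mem_zerosAt_inv_iff hu).mpr hQ
      refine (h2 Q hQ').imp_right fun h' => ?_
      simp only [Finsupp.add_apply, Finsupp.smul_apply, smul_eq_mul, ramDivisor_apply,
        poleDivisor_of_mem hQ', ramIdx_of_mem_zerosAt_inv hu hQ']
      linarith

omit [IsAlgClosed K] [IsFunctionField1 K F] in
/-- Dimension of a space described by polynomial coordinates of bounded degree. -/
theorem finrank_of_coords (hu : IsGen K u) {n : ℕ} (B : Module.Basis (Fin n) L F) (k : Fin n → ℕ)
    (S : Submodule K F)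
    (hS : ∀ f, f ∈ S ↔ ∀ i, ∃ p : K[X], B.repr f i = aeval u p ∧ p ∈ degreeLT K (k i)) :
    Module.finrank K S = ∑ i, k i := by
  let φ : ((i : Fin n) → degreeLT K (k i)) →ₗ[K] F :=
    { toFun := fun p => ∑ i, aeval u (p i : K[X]) • B i
      map_add' := fun p q => by simp [add_smul, Finset.sum_add_distrib]
      map_smul' := fun a p => by simp [Finset.smul_sum, smul_assoc] }
  have hrepr : ∀ p i, B.repr (φ p) i = aeval u (p i : K[X]) := fun p i =>
    B.repr_sum_self (fun i => aeval u (p i : K[X])) ▸ rfl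
  have hinj : Function.Injective φ := by
    intro p q h
    funext i
    refine Subtype.ext (sub_eq_zero.mp (by_contra fun h0 => hu.transcendental ⟨_, h0, ?_⟩))
    rw [map_sub, ← hrepr, ← hrepr, h, sub_self]
  have hrange : φ.range = S := by
    ext f
    rw [hS f, LinearMap.mem_range]
    constructor
    · rintro ⟨p, rfl⟩ i
      exact ⟨p i, hrepr p i, (p i).2⟩
    · intro h
      choose p hp hpd using h
      refine ⟨fun i => ⟨p i, hpd i⟩, B.ext_elem fun i => ?_⟩
      rw [hrepr, hp]
  rw [← hrange, LinearMap.finrank_range_of_inj hinj, Module.finrank_pi_fintype]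
  exact Finset.sum_congr rfl fun i _ => by
    rw [(degreeLTEquiv K (k i)).finrank_eq, Module.finrank_fin_fun]

theorem mem_degreeLT_toNat_iff {R : Type*} [Semiring R] (p : R[X]) (a : ℤ) :
    p ∈ degreeLT R (a + 1).toNat ↔ p = 0 ∨ (p.natDegree : ℤ) ≤ a := by
  rw [mem_degreeLT]
  by_cases hp : p = 0
  · simp [hp]
  · rw [degree_eq_natDegree hp]
    simp only [hp, false_or, Nat.cast_lt]
    omega

namespace IsLatticeBasis

variable {n : ℕ} {b : Module.Basis (Fin n) L F} {r : Fin n → ℕ}

theorem ell_smul_poleDivisor (h : IsLatticeBasis K u b r) (hu : IsGen K u) (m : ℤ) :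
    ell (m • poleDivisor (F := F) K u) = ∑ i, (m - r i + 1).toNat := by
  refine finrank_of_coords hu b _ _ fun f => ?_
  rw [mem_riemannRochSpace_smul_poleDivisor_iff hu, h.mem_iff]
  refine forall_congr' fun i => exists_congr fun p => and_congr Iff.rfl ?_
  rw [mem_degreeLT_toNat_iff, le_sub_iff_add_le]

theorem ell_ram [FiniteDimensional L F] [Algebra.IsSeparable L F]
    (h : IsLatticeBasis K u b r) (hu : IsGen K u) (ht : IsTame (F := F) K u) (m : ℤ) :
    ell (ramDivisor hu + m • poleDivisor (F := F) K u) = ∑ i, (m + r i + 1).toNat := by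
  refine finrank_of_coords hu b.traceDual _ _ fun f => ?_
  rw [mem_riemannRochSpace_ram_iff hu, h.dual_mem_iff hu ht]
  refine forall_congr' fun i => exists_congr fun p => and_congr Iff.rfl ?_
  rw [mem_degreeLT_toNat_iff]

theorem sum_weights_aux [FiniteDimensional L F] [Algebra.IsSeparable L F] [RRSetting K F]
    (h : IsLatticeBasis K u b r) (hu : IsGen K u) (ht : IsTame (F := F) K u) :
    (∑ i, r i : ℤ) = genusFF K F + n - 1 ∧
      Divisor.degree (ramDivisor (F := F) hu) = 2 * ∑ i, (r i : ℤ) := by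
  have hn : Module.finrank L F = n := by
    rw [Module.finrank_eq_card_basis b, Fintype.card_fin]
  have hdeg := degree_poleDivisor (F := F) hu
  have hpos : 0 < n := hn ▸ Module.finrank_pos
  rw [hn] at hdeg
  set g := genusFF K F
  set M : ℕ := 2 * g + ∑ i, r i
  have hr : ∀ i, r i ≤ M := fun i =>
    (Finset.single_le_sum (fun j _ => Nat.zero_le (r j)) (Finset.mem_univ i)).trans (by omega)
  have hMn : (2 * g : ℤ) ≤ (M : ℤ) * n := by
    have : 2 * g ≤ M * n := le_trans (by omega) (Nat.le_mul_of_pos_right M hpos)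
    exact_mod_cast this
  have h1 := ell_eq_of_degree_ge (D := (M : ℤ) • poleDivisor (F := F) K u) (by
    rw [map_zsmul, hdeg, smul_eq_mul]; omega)
  have hramnn : 0 ≤ Divisor.degree (ramDivisor (F := F) hu) := by
    rw [degree_eq_sum]
    refine Finset.sum_nonneg fun Q _ => ?_
    dsimp only
    rw [ramDivisor_apply]
    have := ramIdx_pos (F := F) hu Q
    omega
  have h2 := ell_eq_of_degree_ge (D := ramDivisor hu + (M : ℤ) • poleDivisor (F := F) K u) (by
    rw [map_add, map_zsmul, hdeg, smul_eq_mul]; omega)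
  rw [map_zsmul, hdeg, smul_eq_mul, h.ell_smul_poleDivisor hu, Nat.cast_sum,
    Finset.sum_congr rfl (fun i _ => Int.toNat_of_nonneg (by have := hr i; omega)),
    Finset.sum_add_distrib, Finset.sum_sub_distrib] at h1
  rw [map_add, map_zsmul, hdeg, smul_eq_mul, h.ell_ram hu ht, Nat.cast_sum,
    Finset.sum_congr rfl (fun i _ => Int.toNat_of_nonneg (by omega)),
    Finset.sum_add_distrib, Finset.sum_add_distrib] at h2
  simp only [Finset.sum_const, Finset.card_univ, Fintype.card_fin, nsmul_eq_mul, mul_one] at h1 h2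
  constructor
  · linarith [mul_comm (n : ℤ) (M : ℤ)]
  · linarith [mul_comm (n : ℤ) (M : ℤ)]

end IsLatticeBasis

variable [FiniteDimensional L F] [Algebra.IsSeparable L F] [RRSetting K F]

/-- **Riemann–Hurwitz** for `F/K(u)` with tame ramification. -/
theorem degree_ramDivisor (hu : IsGen K u) (ht : IsTame (F := F) K u) :
    Divisor.degree (ramDivisor (F := F) hu)
      = 2 * (genusFF K F : ℤ) - 2 + 2 * Module.finrank L F := by
  obtain ⟨b, r, h⟩ := exists_latticeBasis (F := F) hu
  obtain ⟨h1, h2⟩ := h.sum_weights_aux hu ht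
  rw [h2, h1]
  ring

/-- The canonical divisor `Ram - 2 D∞` (the divisor of `du`). -/
def lineCanonical (hu : IsGen K u) : Divisor K F :=
  ramDivisor hu + (-2 : ℤ) • poleDivisor K u

theorem degree_lineCanonical (hu : IsGen K u) (ht : IsTame (F := F) K u) :
    Divisor.degree (lineCanonical (F := F) hu) = 2 * (genusFF K F : ℤ) - 2 := by
  rw [lineCanonical, map_add, map_zsmul, degree_ramDivisor hu ht, degree_poleDivisor hu,
    smul_eq_mul]
  ring

end FermatAgent.Curve.Diff
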