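import Fermat.Agent.Curve.Diff.LocalTrace
import Mathlib.Algebra.Polynomial.Reverse

/-!
# Finite and infinite places with respect to a generator of `L = K(u)`
-/

set_option autoImplicit false

noncomputable section

open AlgebraicCurve IntermediateField Polynomial

namespace FermatAgent.Curve.Diff

variable {K F : Type*} [Field K] [Field F] [Algebra K F] [IsAlgClosed K] [IsFunctionField1 K F]
variable {L : Type*} [Field L] [Algebra K L] [Algebra L F] [IsScalarTower K L F]
variable {u : L} {c : K}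

omit [IsAlgClosed K] in
theorem IsGen.inv (hu : IsGen K u) : IsGen K u⁻¹ := by
  refine ⟨fun h => hu.transcendental (IsAlgebraic.inv_iff.mp h), top_le_iff.mp ?_⟩
  rw [← hu.top, adjoin_simple_le_iff]
  simpa using inv_mem (mem_adjoin_simple_self K u⁻¹)

/-- A finite place: one where `u` has no pole. -/
def FinAt (u : L) (Q : Place K F) : Prop := OrdGE Q 0 (algebraMap L F u)

/-- Regularity at all finite places. -/
def FinReg (K : Type*) [Field K] [Algebra K F] (u : L) (f : F) : Prop :=
  ∀ Q : Place K F, FinAt u Q → OrdGE Q 0 f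

omit [IsAlgClosed K] in
theorem IsGen.ne_zero (hu : IsGen K u) : u ≠ 0 := fun h =>
  hu.transcendental (h ▸ isAlgebraic_zero)

omit [IsScalarTower K L F] in
theorem mem_zerosAt_inv_iff {Q : Place K F} (hu : IsGen K u) :
    Q ∈ zerosAt u⁻¹ (0 : K) ↔ ¬ FinAt u Q := by
  have hne : algebraMap L F u ≠ 0 := (_root_.map_ne_zero _).mpr hu.ne_zero
  rw [zerosAt, mem_zerosFinset, map_zero, sub_zero, map_inv₀, Q.ord_inv, FinAt, OrdGE]
  simp only [hne, false_or]
  omega

omit [IsScalarTower K L F] in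
theorem cast_eAt_inv {Q : Place K F} (_hu : IsGen K u) (hQ : Q ∈ zerosAt u⁻¹ (0 : K)) :
    (eAt u⁻¹ (0 : K) Q : ℤ) = -Q.ord (algebraMap L F u) := by
  rw [cast_eAt hQ, map_zero, sub_zero, map_inv₀, Q.ord_inv]

theorem FinAt.mem_zerosAt {Q : Place K F} (hu : IsGen K u) (hQ : FinAt u Q) :
    Q ∈ zerosAt u (valueAt Q (algebraMap L F u)) :=
  mem_zerosFinset.mpr (by
    have := (ordGE_sub_valueAt hQ).le_ord (uc_ne_zero hu _)
    omega)

omit [Algebra K L] [IsScalarTower K L F] in
theorem finAt_of_mem_zerosAt {Q : Place K F} (hQ : Q ∈ zerosAt u c) : FinAt u Q :=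
  ordGE_zero_iff_mem.mpr (mem_and_valueAt_eq hQ).1

omit [Algebra K L] [IsScalarTower K L F] in
theorem FinReg.regAt {f : F} (hf : FinReg K u f) (c : K) : RegAt u c f :=
  fun _ hQ => hf _ (finAt_of_mem_zerosAt hQ)

theorem finReg_of_forall_regAt {f : F} (hu : IsGen K u) (h : ∀ c : K, RegAt u c f) :
    FinReg K u f :=
  fun Q hQ => h _ Q (hQ.mem_zerosAt hu)

theorem zerosAt_nonempty [FiniteDimensional L F] (hu : IsGen K u) (c : K) :
    (zerosAt (F := F) u c).Nonempty := by
  by_contra h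
  rw [Finset.not_nonempty_iff_eq_empty] at h
  have := sum_eAt (F := F) hu c
  rw [h, Finset.sum_empty] at this
  exact absurd this.symm Module.finrank_pos.ne'

omit [IsAlgClosed K] [IsFunctionField1 K F] in
theorem finReg_aeval (p : K[X]) : FinReg K u (algebraMap L F (aeval u p)) := by
  intro Q hQ
  rw [← aeval_algebraMap_apply]
  exact ordGE_zero_iff_mem.mpr
    (aeval_mem Q (ordGE_zero_iff_mem.mp hQ) p)

/-- An element of `K(u)` regular at every finite place is a polynomial in `u`. -/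
theorem exists_eq_aeval_of_finReg [FiniteDimensional L F] (hu : IsGen K u) {q : L}
    (hq : FinReg K u (algebraMap L F q)) : ∃ p : K[X], q = aeval u p := by
  obtain ⟨A, B, hB, rfl⟩ := hu.exists_polynomial q
  induction h : B.natDegree using Nat.strong_induction_on generalizing A B with
  | _ d ih =>
  by_cases hd : B.natDegree = 0
  · obtain ⟨b, rfl⟩ := natDegree_eq_zero.mp hd
    refine ⟨A * C b⁻¹, ?_⟩
    simp [div_eq_mul_inv, map_inv₀]
  obtain ⟨c, hc⟩ := IsAlgClosed.exists_root B (by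
    rw [degree_eq_natDegree hB]; exact_mod_cast hd)
  obtain ⟨B1, rfl⟩ := dvd_iff_isRoot.mpr hc
  have hB1 : B1 ≠ 0 := right_ne_zero_of_mul hB
  by_cases hA : IsRoot A c
  · obtain ⟨A1, rfl⟩ := dvd_iff_isRoot.mpr hA
    have hne : aeval u (X - C c) ≠ 0 := fun h0 =>
      hu.transcendental ⟨_, X_sub_C_ne_zero c, h0⟩
    have heq : aeval u ((X - C c) * A1) / aeval u ((X - C c) * B1)
        = aeval u A1 / aeval u B1 := by
      rw [map_mul, map_mul, mul_div_mul_left _ _ hne]
    rw [heq] at hq ⊢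
    refine ih B1.natDegree ?_ A1 B1 hB1 hq rfl
    rw [← h, natDegree_mul (X_sub_C_ne_zero c) hB1, natDegree_X_sub_C]
    omega
  · obtain ⟨Q, hQ⟩ := zerosAt_nonempty (F := F) hu c
    obtain ⟨hoA, -⟩ := ord_aeval_eq_zero (F := F) hQ (p := A) hA
    have hBne : aeval u ((X - C c) * B1) ≠ 0 := fun h0 => hu.transcendental ⟨_, hB, h0⟩
    have hAne : aeval u A ≠ 0 := fun h0 =>
      hu.transcendental ⟨_, fun hA0 => hA (by simp [hA0]), h0⟩
    have h1 := (hq Q (finAt_of_mem_zerosAt hQ)).le_ord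
      ((_root_.map_ne_zero _).mpr (div_ne_zero hAne hBne))
    rw [map_div₀, ord_div Q ((_root_.map_ne_zero _).mpr hAne) ((_root_.map_ne_zero _).mpr hBne), hoA,
      map_mul, map_mul, Q.ord_mul ((_root_.map_ne_zero _).mpr fun h0 => hu.transcendental
        ⟨_, X_sub_C_ne_zero c, h0⟩) ((_root_.map_ne_zero _).mpr fun h0 => hu.transcendental
        ⟨_, hB1, h0⟩)] at h1
    have h2 : 0 < Q.ord (algebraMap L F (aeval u (X - C c))) := by
      simpa [← IsScalarTower.algebraMap_apply] using mem_zerosFinset.mp hQ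
    have h3 := (finReg_aeval (K := K) (F := F) B1 Q (finAt_of_mem_zerosAt hQ)).le_ord
      ((_root_.map_ne_zero _).mpr fun h0 => hu.transcendental ⟨_, hB1, h0⟩)
    omega

/-- Every function becomes regular at the finite places after multiplication by a polynomial in
`u`, which can be taken nonzero at the points where the function is already regular. -/
theorem exists_multiplier (hu : IsGen K u) (f : F) :
    ∃ s : K[X], s ≠ 0 ∧ FinReg K u (algebraMap L F (aeval u s) * f) ∧
      ∀ c : K, RegAt u c f → s.eval c ≠ 0 := by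
  classical
  by_cases hf : f = 0
  · exact ⟨1, one_ne_zero, fun Q _ => Or.inl (by simp [hf]), fun _ _ => by simp⟩
  set T := ((divisorOf (K := K) f).support.filter fun Q => Q.ord f < 0 ∧ FinAt u Q)
  set k : Place K F → ℕ := fun Q => (-Q.ord f).toNat
  set w : Place K F → K := fun Q => valueAt Q (algebraMap L F u)
  have hne : (∏ Q ∈ T, (X - C (w Q)) ^ k Q : K[X]) ≠ 0 :=
    Finset.prod_ne_zero_iff.mpr fun Q _ => pow_ne_zero _ (X_sub_C_ne_zero _)
  refine ⟨_, hne, fun P hP => ?_, fun c hc => ?_⟩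
  · set s := (∏ Q ∈ T, (X - C (w Q)) ^ k Q : K[X])
    have hs : algebraMap L F (aeval u s) ≠ 0 :=
      (_root_.map_ne_zero _).mpr fun h0 => hu.transcendental ⟨_, hne, h0⟩
    refine Or.inr ?_
    rw [P.ord_mul hs hf]
    have h0 := (finReg_aeval (K := K) (F := F) s P hP).le_ord hs
    by_cases hPT : P ∈ T
    · obtain ⟨s', hs'⟩ : (X - C (w P)) ^ k P ∣ s := Finset.dvd_prod_of_mem _ hPT
      have hs'0 : algebraMap L F (aeval u s') ≠ 0 := fun h => hs (by simp [hs', h])
      have hlin : algebraMap L F (aeval u (X - C (w P)))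
          = algebraMap L F u - algebraMap K F (w P) := by
        simp [← IsScalarTower.algebraMap_apply]
      have h1 := (finReg_aeval (K := K) (F := F) s' P hP).le_ord hs'0
      rw [hs', map_mul, map_mul, map_pow, map_pow, hlin,
        P.ord_mul (pow_ne_zero _ (uc_ne_zero hu _)) hs'0, ord_pow']
      have h2 := mem_zerosFinset.mp (hP.mem_zerosAt hu)
      have h3 : (k P : ℤ) * 1 ≤ k P * P.ord (algebraMap L F u - algebraMap K F (w P)) :=
        mul_le_mul_of_nonneg_left (by simp only [w]; omega) (by omega)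
      have h4 : -P.ord f ≤ (k P : ℤ) := Int.self_le_toNat _
      omega
    · have : 0 ≤ P.ord f := by
        by_contra hlt
        refine hPT (Finset.mem_filter.mpr ⟨?_, by omega, hP⟩)
        rw [Finsupp.mem_support_iff, divisorOf_apply]
        omega
      omega
  · rw [eval_prod, Finset.prod_ne_zero_iff]
    intro Q hQ
    rw [eval_pow]
    refine pow_ne_zero _ ?_
    rw [eval_sub, eval_X, eval_C, sub_ne_zero]
    intro hcw
    rw [Finset.mem_filter] at hQ
    have := (hc Q (hcw ▸ hQ.2.2.mem_zerosAt hu)).le_ord hf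
    omega

/-- The order at infinity of a polynomial in `u`. -/
theorem ord_aeval_inf (hu : IsGen K u) {Q : Place K F} (hQ : Q ∈ zerosAt u⁻¹ (0 : K))
    {p : K[X]} (hp : p ≠ 0) :
    Q.ord (algebraMap L F (aeval u p)) = -((p.natDegree : ℤ) * eAt u⁻¹ (0 : K) Q) := by
  let : Invertible u := invertibleOfNonzero hu.ne_zero
  have h := eval₂_reverse_mul_pow (algebraMap K L) u p
  rw [invOf_eq_inv, ← aeval_def, ← aeval_def] at h
  have hrev : (p.reverse).eval 0 ≠ 0 := by
    rw [← coeff_zero_eq_eval_zero, coeff_zero_reverse]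
    exact leadingCoeff_ne_zero.mpr hp
  obtain ⟨ho, -⟩ := ord_aeval_eq_zero (F := F) hQ hrev
  have hne : aeval u⁻¹ p.reverse ≠ 0 := fun h0 => hu.inv.transcendental
    ⟨_, fun h1 => hrev (by simp [h1]), h0⟩
  rw [← h, map_mul, map_pow, Q.ord_mul ((_root_.map_ne_zero _).mpr hne)
    (pow_ne_zero _ ((_root_.map_ne_zero _).mpr hu.ne_zero)), ho, ord_pow', cast_eAt_inv hu hQ]
  ring

theorem ordGE_inf_aeval_iff [FiniteDimensional L F] (hu : IsGen K u) (p : K[X]) (m : ℤ) :
    (∀ Q ∈ zerosAt (F := F) u⁻¹ (0 : K),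
        OrdGE Q (-(m * eAt u⁻¹ (0 : K) Q)) (algebraMap L F (aeval u p)))
      ↔ p = 0 ∨ (p.natDegree : ℤ) ≤ m := by
  by_cases hp : p = 0
  · simp [hp, OrdGE]
  have hne : algebraMap L F (aeval u p) ≠ 0 :=
    (_root_.map_ne_zero _).mpr fun h0 => hu.transcendental ⟨_, hp, h0⟩
  simp only [hp, false_or, OrdGE, hne]
  refine ⟨fun h => ?_, fun h Q hQ => ?_⟩
  · obtain ⟨Q, hQ⟩ := zerosAt_nonempty (F := F) hu.inv (0 : K)
    have := h Q hQ
    rw [ord_aeval_inf hu hQ hp, neg_le_neg_iff] at this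
    exact le_of_mul_le_mul_right this (by exact_mod_cast eAt_pos hQ)
  · rw [ord_aeval_inf hu hQ hp, neg_le_neg_iff]
    exact mul_le_mul_of_nonneg_right h (by omega)

end FermatAgent.Curve.Diff
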